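/-
S35-ALG, leaf (COMM) (helper60): the push-forward on `J₀ = Pic⁰` along a `ℚ̄`-embedding of
modular function fields, and the two degeneracy maps

  `degAlpha N q, degBeta N q : J₀(N q)(ℚ̄) → J₀(N)(ℚ̄)`

(push-forward along the inclusion `α : F_N → F_{Nq}`, resp. along `β : F_N → F_{Nq}`,
`f(z) ↦ f(z^q)` on expansions), i.e. `α_*`, `β_*` of the S35 design.
-/
import Fermat.Agent.S29.H60.CommuteDiv

set_option autoImplicit false

open AlgebraicCurve ModularCurve

noncomputable section

namespace Fermat.Agent.S35.H60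

open Fermat.Agent.S24

section Push

variable {A B : ℕ} [NeZero A] [NeZero B] (φ : FF A →ₐ[Kbar] FF B)

/-- Push-forward of degree-zero divisors along a `ℚ̄`-embedding of modular function fields. -/
def pushDegZero :
    Divisor.degZero (K := Kbar) (F := FF B) →+ Divisor.degZero (K := Kbar) (F := FF A) :=
  ((Divisor.pushforwardAlong φ (Fermat.Agent.S29.H60.isIntegral_FF φ)).domRestrict
    (Divisor.degZero (K := Kbar) (F := FF B))).codRestrict _
    (fun D => Divisor.pushforwardAlong_mem_degZero φ (Fermat.Agent.S29.H60.isIntegral_FF φ) D.2)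

@[simp]
theorem coe_pushDegZero (D : Divisor.degZero (K := Kbar) (F := FF B)) :
    (pushDegZero φ D : Divisor Kbar (FF A))
      = Divisor.pushforwardAlong φ (Fermat.Agent.S29.H60.isIntegral_FF φ)
          (D : Divisor Kbar (FF B)) :=
  rfl

/-- Push-forward on `Pic⁰` along a `ℚ̄`-embedding of modular function fields. -/
def pushPic : JZero B →+ JZero A :=
  QuotientAddGroup.map _ _ (pushDegZero φ) (by
    rintro ⟨D, hD0⟩ hD
    simp only [AddSubgroup.mem_addSubgroupOf] at hD ⊢
    exact Divisor.isPrincipal_pushforwardAlong φ (Fermat.Agent.S29.H60.isIntegral_FF φ)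
      (Fermat.Agent.S29.H60.finiteAlong_FF φ) (Fermat.Agent.S29.H60.normFormulaAlong_FF φ) hD)

theorem pushPic_mk (D : Divisor.degZero (K := Kbar) (F := FF B)) :
    pushPic φ (Pic0.mk D) = Pic0.mk (pushDegZero φ D) :=
  rfl

/-- The class of a divisor is sent to the class of its push-forward. -/
theorem pushPic_mk' (D : Divisor.degZero (K := Kbar) (F := FF B)) :
    ∃ D' : Divisor.degZero (K := Kbar) (F := FF A),
      pushPic φ (Pic0.mk D) = Pic0.mk D' ∧
      (D' : Divisor Kbar (FF A))
        = Divisor.pushforwardAlong φ (Fermat.Agent.S29.H60.isIntegral_FF φ)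
            (D : Divisor Kbar (FF B)) :=
  ⟨pushDegZero φ D, rfl, rfl⟩

end Push

section Degeneracy

variable (N q : ℕ) [NeZero N] [NeZero q]

/-- `α_* : J₀(N q) → J₀(N)`: push-forward along the inclusion `F_N ⊆ F_{N q}`. -/
def degAlpha : JZero (N * q) →+ JZero N :=
  pushPic (heckeAlphaBar Kbar N q)

/-- `β_* : J₀(N q) → J₀(N)`: push-forward along `F_N → F_{N q}`, `f(z) ↦ f(z^q)`. -/
def degBeta : JZero (N * q) →+ JZero N :=
  pushPic (heckeBetaBar Kbar N q)

theorem degAlpha_mk (D : Divisor.degZero (K := Kbar) (F := FF (N * q))) :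
    degAlpha N q (Pic0.mk D) = Pic0.mk (pushDegZero (heckeAlphaBar Kbar N q) D) :=
  rfl

theorem degBeta_mk (D : Divisor.degZero (K := Kbar) (F := FF (N * q))) :
    degBeta N q (Pic0.mk D) = Pic0.mk (pushDegZero (heckeBetaBar Kbar N q) D) :=
  rfl

end Degeneracy

end Fermat.Agent.S35.H60
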