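/-
S35-ALG, leaf (COMM), `α`-half (helper60): the degeneracy push-forward
`α_* : J₀(N q) → J₀(N)` commutes with the Hecke operators `T_ℓ`, `ℓ ≠ q` prime:

  `α_* ∘ T_ℓ^{(N q)} = T_ℓ^{(N)} ∘ α_*`.

On divisors `T_ℓ = (α_ℓ)_* (β_ℓ)^*`; base change (`S29.H60.modular_baseChange`) in the
cartesian square `(α_{N,q}, β_{N,ℓ}, incl, β_{Nq,ℓ})` and functoriality of the push-forward.
-/
import Fermat.Agent.S35.H60.DegDefs
import Fermat.Agent.S29.H60.Commute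

set_option autoImplicit false

open AlgebraicCurve ModularCurve

noncomputable section

namespace Fermat.Agent.S35.H60

open Fermat.Agent.S24 Fermat.Agent.S29.H60

attribute [local instance] Fermat.Agent.S37.H75.hasPrincipalDivisors_FF

/-- Pull-back along pointwise equal embeddings. -/
theorem pullbackAlong_congr {A B : ℕ} [NeZero A] [NeZero B] (φ ψ : FF A →ₐ[Kbar] FF B)
    (h : ∀ x, φ x = ψ x) (hφ : φ.toRingHom.IsIntegral) (hψ : ψ.toRingHom.IsIntegral)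
    (D : Divisor Kbar (FF A)) :
    Divisor.pullbackAlong φ hφ D = Divisor.pullbackAlong ψ hψ D := by
  obtain rfl : φ = ψ := AlgHom.ext h
  rfl

/-- Push-forward along pointwise equal embeddings. -/
theorem pushforwardAlong_congr {A B : ℕ} [NeZero A] [NeZero B] (φ ψ : FF A →ₐ[Kbar] FF B)
    (h : ∀ x, φ x = ψ x) (hφ : φ.toRingHom.IsIntegral) (hψ : ψ.toRingHom.IsIntegral)
    (D : Divisor Kbar (FF B)) :
    Divisor.pushforwardAlong φ hφ D = Divisor.pushforwardAlong ψ hψ D := by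
  obtain rfl : φ = ψ := AlgHom.ext h
  rfl

section Alpha

variable (N q ℓ : ℕ) [NeZero N] [NeZero q] [NeZero ℓ]

/-- `α_* T_ℓ = T_ℓ α_*` on divisors (`ℓ ≠ q` primes). -/
theorem pushAlpha_heckeDiv (hq : q.Prime) (hℓ : ℓ.Prime) (hne : ℓ ≠ q)
    (D : Divisor Kbar (FF (N * q))) :
    Divisor.pushforwardAlong (heckeAlphaBar Kbar N q) (isIntegral_FF _)
        (Divisor.pushforwardAlong (heckeAlphaBar Kbar (N * q) ℓ) (isIntegral_FF _)
          (Divisor.pullbackAlong (heckeBetaBar Kbar (N * q) ℓ) (isIntegral_FF _) D))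
      = Divisor.pushforwardAlong (heckeAlphaBar Kbar N ℓ) (isIntegral_FF _)
        (Divisor.pullbackAlong (heckeBetaBar Kbar N ℓ) (isIntegral_FF _)
          (Divisor.pushforwardAlong (heckeAlphaBar Kbar N q) (isIntegral_FF _) D)) := by
  have h1 : N * ℓ ∣ N * q * ℓ := ⟨q, by ring⟩
  have hP : N * q * ℓ = N * q * ℓ := rfl
  have hN : N ∣ N * q * ℓ := ⟨q * ℓ, by ring⟩
  set ι : FF N →ₐ[Kbar] FF (N * q * ℓ) := inclFF hN with hι
  have hι1 : ∀ x : FF N, ι x = inclFF h1 (heckeAlphaBar Kbar N ℓ x) := fun x =>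
    Subtype.ext (by rw [hι, coe_inclFF, coe_inclFF, coe_heckeAlphaBar])
  have hι2 : ∀ x : FF N, ι x = heckeAlphaBar Kbar (N * q) ℓ (heckeAlphaBar Kbar N q x) :=
    fun x => Subtype.ext (by rw [hι, coe_inclFF, coe_heckeAlphaBar, coe_heckeAlphaBar])
  have hβ : ∀ x : FF (N * q),
      (qFF ℓ (dvd_of_eq hP) : FF (N * q) →ₐ[Kbar] FF (N * q * ℓ)) x
        = heckeBetaBar Kbar (N * q) ℓ x := fun x =>
    Subtype.ext (by rw [coe_qFF, coe_heckeBetaBar])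
  rw [modular_baseChange N ℓ q (N * q * ℓ) hℓ hq hne h1 hP,
    ← pushforwardAlong_comp (heckeAlphaBar Kbar N ℓ) (inclFF h1) ι (isIntegral_FF _)
      (isIntegral_FF _) (isIntegral_FF _) hι1 (inertiaDegAlong_FF _)
      (inertiaDegAlong_FF _) (inertiaDegAlong_FF _),
    ← pushforwardAlong_comp (heckeAlphaBar Kbar N q) (heckeAlphaBar Kbar (N * q) ℓ) ι
      (isIntegral_FF _) (isIntegral_FF _) (isIntegral_FF _) hι2 (inertiaDegAlong_FF _)
      (inertiaDegAlong_FF _) (inertiaDegAlong_FF _),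
    pullbackAlong_congr _ _ hβ (isIntegral_FF _) (isIntegral_FF _)]

end Alpha

/-- **(COMM), `α`-half**: `α_* ∘ T_ℓ^{(N q)} = T_ℓ^{(N)} ∘ α_*` on `J₀(N q)(ℚ̄)`, for primes
`ℓ ≠ q`. -/
theorem degAlpha_heckeOperatorBar (N q : ℕ) [NeZero N] [NeZero q] (hq : q.Prime)
    (ℓ : Nat.Primes) (hℓq : (ℓ : ℕ) ≠ q) (x : JZero (N * q)) :
    degAlpha N q (heckeOperatorBar (N * q) ℓ x) = heckeOperatorBar N ℓ (degAlpha N q x) := by
  haveI : NeZero (ℓ : ℕ) := ⟨ℓ.2.ne_zero⟩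
  obtain ⟨D, rfl⟩ := Pic0.mk_surjective x
  rw [heckeOperatorBar_apply, heckeOperatorBar_apply]
  obtain ⟨D₁, h1, e1⟩ := heckeOperatorAlong_mk' (N * q) ℓ D
  obtain ⟨D₂, h2, e2⟩ := pushPic_mk' (heckeAlphaBar Kbar N q) D₁
  obtain ⟨D₃, h3, e3⟩ := pushPic_mk' (heckeAlphaBar Kbar N q) D
  obtain ⟨D₄, h4, e4⟩ := heckeOperatorAlong_mk' N ℓ D₃
  rw [h1]
  unfold degAlpha
  rw [h2, h3, h4]
  refine congrArg Pic0.mk (Subtype.ext ?_)
  rw [e2, e1, e4, e3]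
  exact pushAlpha_heckeDiv N q ℓ hq ℓ.2 hℓq D

end Fermat.Agent.S35.H60
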