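/-
S35-ALG, leaf (COMM), `β`-half (helper60): the degeneracy push-forward
`β_* : J₀(N q) → J₀(N)` (`q ∤ N` prime) commutes with the Hecke operators `T_ℓ`, `ℓ ≠ q` prime:

  `β_* ∘ T_ℓ^{(N q)} = T_ℓ^{(N)} ∘ β_*`.

Base change (`S29.H60.pullback_pushforward_eq`) in the square

      F_N     --β_{N,q}-->  F_{Nq}
       |β_{N,ℓ}               |β_{Nq,ℓ}
       v                      v
      F_{Nℓ}  --z ↦ z^q-->  F_{Nqℓ}

whose cartesian-ness is: equal degrees (`ψ`-index formulas) and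
`F_{Nqℓ} = (F_{Nℓ})(z^q) · (F_{Nq})(z^ℓ)`: the right side contains `j(z^q)` and `j(z^{Nℓ})`, which
the Atkin–Lehner involution `W_q` of level `(Nℓ) q` (`S29.H64.exists_atkinLehner`) sends to the
generators `j(z)`, `j(z^{Nℓq})`.
-/
import Fermat.Agent.S35.H60.CommAlpha
import Fermat.Agent.S29.H64.AtkinLehner

set_option autoImplicit false

open AlgebraicCurve ModularCurve

noncomputable section

namespace Fermat.Agent.S35.H60

open Fermat.Agent.S24 Fermat.Agent.S29.H60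

attribute [local instance] Fermat.Agent.S37.H75.hasPrincipalDivisors_FF

section Generation

/-- An intermediate field of `F_{N' q} / ℚ̄` (`q ∤ N'` prime) containing `j(z^q)` and
`j(z^{N'})` is everything. -/
theorem eq_top_of_jq_mem_of_jN_mem (N' q : ℕ) [NeZero N'] [NeZero q] (hq : q.Prime)
    (hqN : ¬ q ∣ N') (E : IntermediateField Kbar (FF (N' * q)))
    (h1 : jF (N' * q) (Fermat.Agent.S37.H87.ellDiv N' q) ∈ E)
    (h2 : jF (N' * q) (Fermat.Agent.S29.H64.incDiv N' q (topDiv N')) ∈ E) : E = ⊤ := by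
  obtain ⟨w, -, hK, hj⟩ := Fermat.Agent.S29.H64.exists_atkinLehner N' q hq hqN
  let wA : FF (N' * q) →ₐ[Kbar] FF (N' * q) := { w with commutes' := hK }
  have e1 : wA (jF (N' * q) (Fermat.Agent.S37.H87.ellDiv N' q)) = jgen (N' * q) := by
    show w _ = jF (N' * q) (oneDiv (N' * q))
    rw [hj]
    congr 1
    apply Subtype.ext
    rw [Fermat.Agent.S29.H64.coe_swapDiv_of_dvd (e := Fermat.Agent.S37.H87.ellDiv N' q)
      (dvd_refl q)]
    exact Nat.div_self hq.pos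
  have e2 : wA (jF (N' * q) (Fermat.Agent.S29.H64.incDiv N' q (topDiv N')))
      = jF (N' * q) (topDiv (N' * q)) := by
    show w _ = _
    rw [hj]
    congr 1
    apply Subtype.ext
    rw [Fermat.Agent.S29.H64.coe_swapDiv_of_not_dvd hq
      (e := Fermat.Agent.S29.H64.incDiv N' q (topDiv N')) hqN]
    rfl
  have hmap : E.map wA = ⊤ :=
    eq_top_of_jgen_mem_of_jtop_mem (N' * q) (E.map wA)
      (e1 ▸ ((IntermediateField.mem_map E).mpr ⟨_, h1, rfl⟩))
      (e2 ▸ ((IntermediateField.mem_map E).mpr ⟨_, h2, rfl⟩))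
  rw [eq_top_iff]
  intro f _
  have hf : wA f ∈ E.map wA := by
    rw [hmap]
    exact IntermediateField.mem_top
  obtain ⟨e, he, hef⟩ := (IntermediateField.mem_map E).mp hf
  have hef' : e = f := wA.toRingHom.injective hef
  exact hef' ▸ he

/-- The same at a level `P = N' q`, with the two elements given by their expansions. -/
theorem eq_top_of_expansions (N' q P : ℕ) [NeZero N'] [NeZero q] [NeZero P] (hq : q.Prime)
    (hqN : ¬ q ∣ N') (hP : N' * q = P) (E : IntermediateField Kbar (FF P)) (y₁ y₂ : FF P)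
    (h1 : (y₁ : LaurentSeries Kbar) = coeffEmb Kbar (qExpand ℚ q jq))
    (h2 : (y₂ : LaurentSeries Kbar) = coeffEmb Kbar (qExpand ℚ N' jq))
    (hy₁ : y₁ ∈ E) (hy₂ : y₂ ∈ E) : E = ⊤ := by
  subst hP
  have e1 : y₁ = jF (N' * q) (Fermat.Agent.S37.H87.ellDiv N' q) := Subtype.ext h1
  have e2 : y₂ = jF (N' * q) (Fermat.Agent.S29.H64.incDiv N' q (topDiv N')) := Subtype.ext h2
  exact eq_top_of_jq_mem_of_jN_mem N' q hq hqN E (e1 ▸ hy₁) (e2 ▸ hy₂)

end Generation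

section Degree

/-- The degree of a `ℚ̄`-embedding `F_A → F_B` sending `j` to some `j(z^d)`, `d ∣ B`. -/
theorem finrankAlong_mul_dedekindPsi {A B : ℕ} [NeZero A] [NeZero B] (φ : FF A →ₐ[Kbar] FF B)
    (d : B.divisors) (h : φ (jgen A) = jF B d) :
    finrankAlong Kbar φ * dedekindPsi A = dedekindPsi B := by
  have h1 := Fermat.Agent.S37.H87.finrank_adjoin_map_tower φ (jgen A)
  rw [h, (Fermat.Agent.S37.H87.finrank_adjoin_jF B d).2,
    (Fermat.Agent.S18.H87.finrank_adjoin_jgen A).2] at h1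
  rw [mul_comm]
  exact h1.symm

end Degree

section Square

variable (N q ℓ : ℕ) [NeZero N] [NeZero q] [NeZero ℓ]

/-- The bottom map of the square: `F_{Nℓ} → F_{Nqℓ}`, `f(z) ↦ f(z^q)`. -/
def botFF : FF (N * ℓ) →ₐ[Kbar] FF (N * q * ℓ) :=
  qFF q (dvd_of_eq (Nat.mul_right_comm N ℓ q))

theorem coe_botFF (x : FF (N * ℓ)) :
    ((botFF N q ℓ x : FF (N * q * ℓ)) : LaurentSeries Kbar)
      = qExpand Kbar q (x : LaurentSeries Kbar) :=
  coe_qFF q _ x

/-- The square commutes. -/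
theorem sq_comm_beta (x : FF N) :
    botFF N q ℓ (heckeBetaBar Kbar N ℓ x)
      = heckeBetaBar Kbar (N * q) ℓ (heckeBetaBar Kbar N q x) := by
  apply Subtype.ext
  rw [coe_botFF, coe_heckeBetaBar, coe_heckeBetaBar, coe_heckeBetaBar, qExpand_qExpand,
    qExpand_qExpand]
  exact Fermat.Agent.S29.H60.qExpand_congr (Nat.mul_comm q ℓ) _

/-- `bot(j) = j(z^q)`. -/
theorem botFF_jgen :
    ((botFF N q ℓ (jgen (N * ℓ)) : FF (N * q * ℓ)) : LaurentSeries Kbar)
      = coeffEmb Kbar (qExpand ℚ q jq) := by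
  rw [coe_botFF]
  show qExpand Kbar q (coeffEmb Kbar (qExpand ℚ 1 jq)) = coeffEmb Kbar (qExpand ℚ q jq)
  have h : ∀ (d : ℕ) [NeZero d], coeffEmb Kbar (qExpand ℚ d jq) = qExpand Kbar d (jqModC Kbar) :=
    fun d _ => coeffMap_jqNModC (algebraMap ℚ Kbar) d
  rw [h 1, h q, qExpand_one_apply]

/-- `β_{Nq,ℓ}(j(z^N)) = j(z^{Nℓ})`. -/
theorem heckeBetaBar_jN :
    ((heckeBetaBar Kbar (N * q) ℓ
        (jF (N * q) (Fermat.Agent.S29.H64.incDiv N q (topDiv N))) : FF (N * q * ℓ)) :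
      LaurentSeries Kbar) = coeffEmb Kbar (qExpand ℚ (N * ℓ) jq) := by
  rw [coe_heckeBetaBar]
  show qExpand Kbar ℓ (coeffEmb Kbar (qExpand ℚ N jq)) = coeffEmb Kbar (qExpand ℚ (N * ℓ) jq)
  have h : ∀ (d : ℕ) [NeZero d], coeffEmb Kbar (qExpand ℚ d jq) = qExpand Kbar d (jqModC Kbar) :=
    fun d _ => coeffMap_jqNModC (algebraMap ℚ Kbar) d
  rw [h N, h (N * ℓ), qExpand_qExpand]
  exact Fermat.Agent.S29.H60.qExpand_congr (Nat.mul_comm ℓ N) _

/-- The two horizontal maps of the square have the same degree. -/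
theorem finrankAlong_sq_beta (hℓ : ℓ.Prime) (hq : q.Prime) (hne : ℓ ≠ q) :
    finrankAlong Kbar (heckeBetaBar Kbar N q) = finrankAlong Kbar (botFF N q ℓ) := by
  have hA := Fermat.Agent.S37.H87.finrankAlong_beta N q
  have hB : finrankAlong Kbar (botFF N q ℓ) * dedekindPsi (N * ℓ) = dedekindPsi (N * q * ℓ) :=
    finrankAlong_mul_dedekindPsi (botFF N q ℓ)
      ⟨q, Nat.mem_divisors.mpr ⟨⟨N * ℓ, by ring⟩, NeZero.ne _⟩⟩
      (Subtype.ext (botFF_jgen N q ℓ))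
  have hN0 : N ≠ 0 := NeZero.ne N
  have hψN : 0 < dedekindPsi N := Fermat.Agent.S18.H87.dedekindPsi_pos N
  have hdvd : ℓ ∣ N * q ↔ ℓ ∣ N := by
    constructor
    · intro h
      rcases (Nat.Prime.dvd_mul hℓ).mp h with h | h
      · exact h
      · exact absurd ((Nat.prime_dvd_prime_iff_eq hℓ hq).mp h) hne
    · intro h
      exact Dvd.dvd.mul_right h q
  by_cases hℓN : ℓ ∣ N
  · have e1 := Fermat.Agent.S20.H77.dedekindPsi_mul_prime_of_dvd hℓ hN0 hℓN
    have e2 := Fermat.Agent.S20.H77.dedekindPsi_mul_prime_of_dvd hℓ (N := N * q)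
      (mul_ne_zero hN0 (NeZero.ne q)) (hdvd.mpr hℓN)
    rw [e1, e2, ← hA] at hB
    have h3 : finrankAlong Kbar (botFF N q ℓ) * (ℓ * dedekindPsi N)
        = finrankAlong Kbar (heckeBetaBar Kbar N q) * (ℓ * dedekindPsi N) := by
      rw [hB]
      ring
    exact (Nat.eq_of_mul_eq_mul_right (Nat.mul_pos hℓ.pos hψN) h3).symm
  · have e1 := Fermat.Agent.S20.H77.dedekindPsi_mul_prime_of_not_dvd hℓ hN0 hℓN
    have e2 := Fermat.Agent.S20.H77.dedekindPsi_mul_prime_of_not_dvd hℓ (N := N * q)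
      (mul_ne_zero hN0 (NeZero.ne q)) (fun h => hℓN (hdvd.mp h))
    rw [e1, e2, ← hA] at hB
    have h3 : finrankAlong Kbar (botFF N q ℓ) * ((ℓ + 1) * dedekindPsi N)
        = finrankAlong Kbar (heckeBetaBar Kbar N q) * ((ℓ + 1) * dedekindPsi N) := by
      rw [hB]
      ring
    exact (Nat.eq_of_mul_eq_mul_right (Nat.mul_pos (Nat.succ_pos ℓ) hψN) h3).symm

/-- The top field is spanned over `bot(F_{Nℓ})` by the image of `F_{Nq}` under `β_{Nq,ℓ}`. -/
theorem span_range_beta (hℓ : ℓ.Prime) (hq : q.Prime) (hne : ℓ ≠ q) (hqN : ¬ q ∣ N) :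
    letI := algebraAlong (botFF N q ℓ)
    Submodule.span (FF (N * ℓ))
      (Set.range (heckeBetaBar Kbar (N * q) ℓ : FF (N * q) →ₐ[Kbar] FF (N * q * ℓ))) = ⊤ := by
  letI := algebraAlong (botFF N q ℓ)
  haveI := isScalarTower_along (botFF N q ℓ)
  haveI : Module.Finite (FF (N * ℓ)) (FF (N * q * ℓ)) := finiteAlong_FF (botFF N q ℓ)
  have hqNℓ : ¬ q ∣ N * ℓ := by
    intro h
    rcases (Nat.Prime.dvd_mul hq).mp h with h | h
    · exact hqN h
    · exact hne ((Nat.prime_dvd_prime_iff_eq hq hℓ).mp h).symm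
  have hE₁ : IntermediateField.adjoin (FF (N * ℓ))
      (Set.range (heckeBetaBar Kbar (N * q) ℓ : FF (N * q) →ₐ[Kbar] FF (N * q * ℓ))) = ⊤ := by
    rw [← IntermediateField.restrictScalars_eq_top_iff (K := Kbar)]
    refine eq_top_of_expansions (N * ℓ) q (N * q * ℓ) hq hqNℓ (Nat.mul_right_comm N ℓ q) _
      (algebraMap (FF (N * ℓ)) (FF (N * q * ℓ)) (jgen (N * ℓ)))
      (heckeBetaBar Kbar (N * q) ℓ (jF (N * q) (Fermat.Agent.S29.H64.incDiv N q (topDiv N))))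
      (botFF_jgen N q ℓ) (heckeBetaBar_jN N q ℓ) ?_ ?_
    · rw [IntermediateField.mem_restrictScalars]
      exact IntermediateField.algebraMap_mem _ _
    · rw [IntermediateField.mem_restrictScalars]
      exact IntermediateField.subset_adjoin _ _ ⟨_, rfl⟩
  have hsub : ((Submonoid.closure
      (Set.range (heckeBetaBar Kbar (N * q) ℓ : FF (N * q) →ₐ[Kbar] FF (N * q * ℓ))) :
        Submonoid (FF (N * q * ℓ))) : Set (FF (N * q * ℓ)))
      ⊆ (Submodule.span (FF (N * ℓ))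
        (Set.range (heckeBetaBar Kbar (N * q) ℓ : FF (N * q) →ₐ[Kbar] FF (N * q * ℓ))) :
          Set (FF (N * q * ℓ))) := by
    have hle : Submonoid.closure
        (Set.range (heckeBetaBar Kbar (N * q) ℓ : FF (N * q) →ₐ[Kbar] FF (N * q * ℓ)))
        ≤ MonoidHom.mrange
          ((heckeBetaBar Kbar (N * q) ℓ : FF (N * q) →ₐ[Kbar] FF (N * q * ℓ)) :
            FF (N * q) →* FF (N * q * ℓ)) := by
      rw [Submonoid.closure_le]
      rintro _ ⟨x, rfl⟩
      exact ⟨x, rfl⟩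
    intro m hm
    obtain ⟨x, rfl⟩ := hle hm
    exact Submodule.subset_span ⟨x, rfl⟩
  have h3 := Algebra.adjoin_eq_span_of_subset (FF (N * ℓ)) hsub
  have h4 := IntermediateField.adjoin_toSubalgebra (F := FF (N * ℓ)) (E := FF (N * q * ℓ))
    (Set.range (heckeBetaBar Kbar (N * q) ℓ : FF (N * q) →ₐ[Kbar] FF (N * q * ℓ)))
  rw [← h3, ← h4, hE₁]
  rfl

/-- **Norm compatibility** in the square. -/
theorem norm_sq_beta (hℓ : ℓ.Prime) (hq : q.Prime) (hne : ℓ ≠ q) (hqN : ¬ q ∣ N)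
    (t : FF (N * q)) :
    normAlong (botFF N q ℓ) (heckeBetaBar Kbar (N * q) ℓ t)
      = heckeBetaBar Kbar N ℓ (normAlong (heckeBetaBar Kbar N q) t) := by
  letI i1 := algebraAlong (heckeBetaBar Kbar N q)
  letI i2 := algebraAlong (botFF N q ℓ)
  haveI : Module.Finite (FF N) (FF (N * q)) := finiteAlong_FF (heckeBetaBar Kbar N q)
  show Algebra.norm (FF (N * ℓ)) (heckeBetaBar Kbar (N * q) ℓ t)
    = heckeBetaBar Kbar N ℓ (Algebra.norm (FF N) t)
  exact norm_baseChange (heckeBetaBar Kbar N ℓ : FF N →+* FF (N * ℓ))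
    ((heckeBetaBar Kbar (N * q) ℓ : FF (N * q) →ₐ[Kbar] FF (N * q * ℓ)) :
      FF (N * q) →+* FF (N * q * ℓ))
    (fun a => (sq_comm_beta N q ℓ a).symm)
    (finrankAlong_sq_beta N q ℓ hℓ hq hne) (span_range_beta N q ℓ hℓ hq hne hqN) t

/-- **Base change in the `β`–`β` square.** -/
theorem modular_baseChange_beta (hℓ : ℓ.Prime) (hq : q.Prime) (hne : ℓ ≠ q) (hqN : ¬ q ∣ N)
    (D : Divisor Kbar (FF (N * q))) :
    Divisor.pullbackAlong (heckeBetaBar Kbar N ℓ) (isIntegral_FF _)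
        (Divisor.pushforwardAlong (heckeBetaBar Kbar N q) (isIntegral_FF _) D)
      = Divisor.pushforwardAlong (botFF N q ℓ) (isIntegral_FF _)
        (Divisor.pullbackAlong (heckeBetaBar Kbar (N * q) ℓ) (isIntegral_FF _) D) :=
  pullback_pushforward_eq (heckeBetaBar Kbar N q) (heckeBetaBar Kbar N ℓ) (botFF N q ℓ)
    (heckeBetaBar Kbar (N * q) ℓ) (isIntegral_FF _) (isIntegral_FF _) (isIntegral_FF _)
    (isIntegral_FF _) (sq_comm_beta N q ℓ) (finiteAlong_FF _)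
    (normFormulaAlong_FF _) (finiteAlong_FF _) (normFormulaAlong_FF _)
    (inertiaDegAlong_FF _) (inertiaDegAlong_FF _) (norm_sq_beta N q ℓ hℓ hq hne hqN)
    (weakApprox_FF (N * q)) D

/-- `β_* T_ℓ = T_ℓ β_*` on divisors (`ℓ ≠ q` primes, `q ∤ N`). -/
theorem pushBeta_heckeDiv (hq : q.Prime) (hℓ : ℓ.Prime) (hne : ℓ ≠ q) (hqN : ¬ q ∣ N)
    (D : Divisor Kbar (FF (N * q))) :
    Divisor.pushforwardAlong (heckeBetaBar Kbar N q) (isIntegral_FF _)
        (Divisor.pushforwardAlong (heckeAlphaBar Kbar (N * q) ℓ) (isIntegral_FF _)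
          (Divisor.pullbackAlong (heckeBetaBar Kbar (N * q) ℓ) (isIntegral_FF _) D))
      = Divisor.pushforwardAlong (heckeAlphaBar Kbar N ℓ) (isIntegral_FF _)
        (Divisor.pullbackAlong (heckeBetaBar Kbar N ℓ) (isIntegral_FF _)
          (Divisor.pushforwardAlong (heckeBetaBar Kbar N q) (isIntegral_FF _) D)) := by
  set κ : FF N →ₐ[Kbar] FF (N * q * ℓ) :=
    (heckeAlphaBar Kbar (N * q) ℓ).comp (heckeBetaBar Kbar N q) with hκ
  have hκ1 : ∀ x : FF N, κ x = botFF N q ℓ (heckeAlphaBar Kbar N ℓ x) := fun x =>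
    Subtype.ext (by
      rw [hκ, AlgHom.comp_apply, coe_heckeAlphaBar, coe_heckeBetaBar, coe_botFF,
        coe_heckeAlphaBar])
  have hκ2 : ∀ x : FF N, κ x = heckeAlphaBar Kbar (N * q) ℓ (heckeBetaBar Kbar N q x) :=
    fun x => AlgHom.comp_apply _ _ x
  rw [modular_baseChange_beta N q ℓ hℓ hq hne hqN,
    ← pushforwardAlong_comp (heckeAlphaBar Kbar N ℓ) (botFF N q ℓ) κ (isIntegral_FF _)
      (isIntegral_FF _) (isIntegral_FF _) hκ1 (inertiaDegAlong_FF _)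
      (inertiaDegAlong_FF _) (inertiaDegAlong_FF _),
    ← pushforwardAlong_comp (heckeBetaBar Kbar N q) (heckeAlphaBar Kbar (N * q) ℓ) κ
      (isIntegral_FF _) (isIntegral_FF _) (isIntegral_FF _) hκ2 (inertiaDegAlong_FF _)
      (inertiaDegAlong_FF _) (inertiaDegAlong_FF _)]

end Square

/-- **(COMM), `β`-half**: `β_* ∘ T_ℓ^{(N q)} = T_ℓ^{(N)} ∘ β_*` on `J₀(N q)(ℚ̄)`, for primes
`ℓ ≠ q`, `q ∤ N`. -/
theorem degBeta_heckeOperatorBar (N q : ℕ) [NeZero N] [NeZero q] (hq : q.Prime)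
    (hqN : ¬ q ∣ N) (ℓ : Nat.Primes) (hℓq : (ℓ : ℕ) ≠ q) (x : JZero (N * q)) :
    degBeta N q (heckeOperatorBar (N * q) ℓ x) = heckeOperatorBar N ℓ (degBeta N q x) := by
  haveI : NeZero (ℓ : ℕ) := ⟨ℓ.2.ne_zero⟩
  obtain ⟨D, rfl⟩ := Pic0.mk_surjective x
  rw [heckeOperatorBar_apply, heckeOperatorBar_apply]
  obtain ⟨D₁, h1, e1⟩ := heckeOperatorAlong_mk' (N * q) ℓ D
  obtain ⟨D₂, h2, e2⟩ := pushPic_mk' (heckeBetaBar Kbar N q) D₁
  obtain ⟨D₃, h3, e3⟩ := pushPic_mk' (heckeBetaBar Kbar N q) D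
  obtain ⟨D₄, h4, e4⟩ := heckeOperatorAlong_mk' N ℓ D₃
  rw [h1]
  unfold degBeta
  rw [h2, h3, h4]
  refine congrArg Pic0.mk (Subtype.ext ?_)
  rw [e2, e1, e4, e3]
  exact pushBeta_heckeDiv N q ℓ hq ℓ.2 hℓq hqN D

end Fermat.Agent.S35.H60
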