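/-
S35-GEO, leaf (TRANSFER-NEW), part 1 (helper60): the pull-back `π^* : J₀(A) → J₀(B)` of divisor
classes along a `ℚ̄`-embedding of modular function fields, and its compatibility with the two
degeneracy push-forwards `α_*`, `β_*` at a prime `q` when the level is raised by an auxiliary
factor `s` prime to `q`:

  `α_* ∘ π^* = π'^* ∘ α_*`,  `β_* ∘ π^* = π'^* ∘ β_*`
  (`π : F_{Nq} ⊆ F_{Nsq}`, `π' : F_N ⊆ F_{Ns}`).

Base change (`S29.H60.pullback_pushforward_eq`) in the squares `(α_{N,q}, π', α_{Ns,q}, π)` and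
`(β_{N,q}, π', β_{Ns,q}, π)`; both are cartesian: the degrees are `q + 1` and
`F_{Nsq} = F_{Ns} · F_{Nq}` (the compositum contains `j(z^q)` and `j(z^{Ns})`:
`eq_top_of_expansions`), resp. `F_{Nsq} = β(F_{Ns}) · F_{Nq}` (it contains `j` and `j(z^{Nsq})`).
-/
import Fermat.Agent.S35.H60.CommBeta
import Fermat.Agent.S37.H77.GalPullback
import Fermat.Agent.S37.H53.Descent

set_option autoImplicit false

open AlgebraicCurve ModularCurve

noncomputable section

namespace Fermat.Agent.S35.H60

open Fermat.Agent.S24 Fermat.Agent.S29.H60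

attribute [local instance] Fermat.Agent.S37.H75.hasPrincipalDivisors_FF

section Pull

variable {A B : ℕ} [NeZero A] [NeZero B] (φ : FF A →ₐ[Kbar] FF B)

/-- The fundamental identity along every `ℚ̄`-embedding of modular function fields. -/
theorem fundamentalIdentityAlong_FF : FundamentalIdentityAlong Kbar φ (isIntegral_FF φ) :=
  Fermat.Agent.S37.H75.fundamentalIdentityAlong φ (isIntegral_FF φ) (finiteAlong_FF φ)
    (Fermat.Agent.S37.H75.deg_eq_one_FF A) (Fermat.Agent.S37.H75.deg_eq_one_FF B)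

/-- Pull-back of degree-zero divisors along a `ℚ̄`-embedding of modular function fields. -/
def pullDegZero :
    Divisor.degZero (K := Kbar) (F := FF A) →+ Divisor.degZero (K := Kbar) (F := FF B) :=
  ((Divisor.pullbackAlong φ (isIntegral_FF φ)).domRestrict
    (Divisor.degZero (K := Kbar) (F := FF A))).codRestrict _
    (fun D => Divisor.pullbackAlong_mem_degZero φ (isIntegral_FF φ)
      (fundamentalIdentityAlong_FF φ) D.2)

@[simp]
theorem coe_pullDegZero (D : Divisor.degZero (K := Kbar) (F := FF A)) :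
    (pullDegZero φ D : Divisor Kbar (FF B))
      = Divisor.pullbackAlong φ (isIntegral_FF φ) (D : Divisor Kbar (FF A)) :=
  rfl

/-- Pull-back on `Pic⁰` along a `ℚ̄`-embedding of modular function fields. -/
def pullPic : JZero A →+ JZero B :=
  QuotientAddGroup.map _ _ (pullDegZero φ) (by
    rintro ⟨D, hD0⟩ hD
    simp only [AddSubgroup.mem_addSubgroupOf] at hD ⊢
    exact Divisor.isPrincipal_pullbackAlong φ (isIntegral_FF φ) hD)

theorem pullPic_mk (D : Divisor.degZero (K := Kbar) (F := FF A)) :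
    pullPic φ (Pic0.mk D) = Pic0.mk (pullDegZero φ D) :=
  rfl

/-- The class of a divisor is sent to the class of its pull-back. -/
theorem pullPic_mk' (D : Divisor.degZero (K := Kbar) (F := FF A)) :
    ∃ D' : Divisor.degZero (K := Kbar) (F := FF B),
      pullPic φ (Pic0.mk D) = Pic0.mk D' ∧
      (D' : Divisor Kbar (FF B))
        = Divisor.pullbackAlong φ (isIntegral_FF φ) (D : Divisor Kbar (FF A)) :=
  ⟨pullDegZero φ D, rfl, rfl⟩

/-- The degree of a `ℚ̄`-embedding of modular function fields is positive. -/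
theorem finrankAlong_pos_FF : 0 < finrankAlong Kbar φ := by
  letI := algebraAlong φ
  haveI : Module.Finite (FF A) (FF B) := finiteAlong_FF φ
  exact Module.finrank_pos

/-- The kernel of `π^*` is killed by the degree. -/
theorem nsmul_eq_zero_of_pullPic_eq_zero (x : JZero A) (hx : pullPic φ x = 0) :
    finrankAlong Kbar φ • x = 0 := by
  obtain ⟨D, rfl⟩ := Pic0.mk_surjective x
  rw [pullPic_mk] at hx
  have h1 : Divisor.pullbackAlong φ (isIntegral_FF φ) (D : Divisor Kbar (FF A)) ∈
      Divisor.principal (K := Kbar) (F := FF B) := by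
    have := (QuotientAddGroup.eq_zero_iff (pullDegZero φ D)).mp hx
    simpa only [AddSubgroup.mem_addSubgroupOf, coe_pullDegZero] using this
  have h2 := Fermat.Agent.S37.H53.nsmul_mem_principal_of_pullbackAlong φ (isIntegral_FF φ)
    (finiteAlong_FF φ) h1
  have h3 : finrankAlong Kbar φ • Pic0.mk D = Pic0.mk (finrankAlong Kbar φ • D) := rfl
  rw [h3]
  refine (QuotientAddGroup.eq_zero_iff _).mpr ?_
  rw [AddSubgroup.mem_addSubgroupOf, AddSubgroup.coe_nsmul]
  exact h2

end Pull

section Incl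

variable {A B : ℕ} [NeZero A] [NeZero B]

/-- The pull-back along an inclusion `F_A ⊆ F_B` commutes with the arithmetic Galois action. -/
theorem pullPic_inclFF_smul (h : A ∣ B) (σ : Kbar ≃ₐ[ℚ] Kbar) (x : JZero A) :
    pullPic (inclFF h) (σ • x) = σ • pullPic (inclFF h) x := by
  obtain ⟨D, rfl⟩ := Pic0.mk_surjective x
  rw [galois_smul_pic0_def, galois_smul_pic0_def, SemilinearAut.pic0_smul_mk, pullPic_mk,
    pullPic_mk, SemilinearAut.pic0_smul_mk]
  refine congrArg Pic0.mk (Subtype.ext ?_)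
  rw [coe_pullDegZero, SemilinearAut.coe_degZeroSMulHom, SemilinearAut.coe_degZeroSMulHom,
    coe_pullDegZero]
  exact Fermat.Agent.S37.H77.pullbackAlong_smul (inclFF h) (isIntegral_FF _)
    (arithmeticGalois (modularFunctionFieldFull A) σ)
    (arithmeticGalois (modularFunctionFieldFull B) σ)
    (Fermat.Agent.S37.H77.intertwines_inclusion
      (Fermat.Agent.S18.H87.modularFunctionFieldBar_mono h) σ) _

end Incl

section Squares

variable (N s q : ℕ) [NeZero N] [NeZero s] [NeZero q]

/-- `π' : F_N ⊆ F_{N s}`. -/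
def inclBase : FF N →ₐ[Kbar] FF (N * s) := inclFF (dvd_mul_right N s)

/-- `π : F_{N q} ⊆ F_{N s q}`. -/
def inclTop : FF (N * q) →ₐ[Kbar] FF (N * s * q) :=
  inclFF (Nat.mul_dvd_mul_right (dvd_mul_right N s) q)

theorem coe_inclBase (x : FF N) :
    ((inclBase N s x : FF (N * s)) : LaurentSeries Kbar) = (x : LaurentSeries Kbar) :=
  coe_inclFF _ x

theorem coe_inclTop (x : FF (N * q)) :
    ((inclTop N s q x : FF (N * s * q)) : LaurentSeries Kbar) = (x : LaurentSeries Kbar) :=
  coe_inclFF _ x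

theorem not_dvd_mul_of_not_dvd (hq : q.Prime) (hqN : ¬ q ∣ N) (hqs : ¬ q ∣ s) : ¬ q ∣ N * s :=
  fun h => ((Nat.Prime.dvd_mul hq).mp h).elim hqN hqs

/-! ### The `α`-square -/

theorem sq_comm_inclAlpha (x : FF N) :
    heckeAlphaBar Kbar (N * s) q (inclBase N s x) = inclTop N s q (heckeAlphaBar Kbar N q x) := by
  apply Subtype.ext
  rw [coe_heckeAlphaBar, coe_inclBase, coe_inclTop, coe_heckeAlphaBar]

theorem finrankAlong_inclAlpha (hq : q.Prime) (hqN : ¬ q ∣ N) (hqs : ¬ q ∣ s) :
    finrankAlong Kbar (heckeAlphaBar Kbar N q)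
      = finrankAlong Kbar (heckeAlphaBar Kbar (N * s) q) := by
  rw [Fermat.Agent.S37.H87.finrankAlong_alpha_prime N q hq hqN,
    Fermat.Agent.S37.H87.finrankAlong_alpha_prime (N * s) q hq
      (not_dvd_mul_of_not_dvd N s q hq hqN hqs)]

/-- `F_{Nsq} = F_{Ns} · F_{Nq}`, in span form. -/
theorem span_range_inclAlpha (hq : q.Prime) (hqN : ¬ q ∣ N) (hqs : ¬ q ∣ s) :
    letI := algebraAlong (heckeAlphaBar Kbar (N * s) q)
    Submodule.span (FF (N * s))
      (Set.range (inclTop N s q : FF (N * q) →ₐ[Kbar] FF (N * s * q))) = ⊤ := by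
  letI := algebraAlong (heckeAlphaBar Kbar (N * s) q)
  haveI := isScalarTower_along (heckeAlphaBar Kbar (N * s) q)
  haveI : Module.Finite (FF (N * s)) (FF (N * s * q)) :=
    finiteAlong_FF (heckeAlphaBar Kbar (N * s) q)
  have hE₁ : IntermediateField.adjoin (FF (N * s))
      (Set.range (inclTop N s q : FF (N * q) →ₐ[Kbar] FF (N * s * q))) = ⊤ := by
    rw [← IntermediateField.restrictScalars_eq_top_iff (K := Kbar)]
    refine eq_top_of_expansions (N * s) q (N * s * q) hq
      (not_dvd_mul_of_not_dvd N s q hq hqN hqs) rfl _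
      (inclTop N s q (jF (N * q) (Fermat.Agent.S37.H87.ellDiv N q)))
      (algebraMap (FF (N * s)) (FF (N * s * q)) (jF (N * s) (topDiv (N * s))))
      ?_ ?_ ?_ ?_
    · rw [coe_inclTop]
      rfl
    · show ((heckeAlphaBar Kbar (N * s) q (jF (N * s) (topDiv (N * s))) : FF (N * s * q)) :
        LaurentSeries Kbar) = _
      rw [coe_heckeAlphaBar]
      rfl
    · rw [IntermediateField.mem_restrictScalars]
      exact IntermediateField.subset_adjoin _ _ ⟨_, rfl⟩
    · rw [IntermediateField.mem_restrictScalars]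
      exact IntermediateField.algebraMap_mem _ _
  have hsub : ((Submonoid.closure
      (Set.range (inclTop N s q : FF (N * q) →ₐ[Kbar] FF (N * s * q))) :
        Submonoid (FF (N * s * q))) : Set (FF (N * s * q)))
      ⊆ (Submodule.span (FF (N * s))
        (Set.range (inclTop N s q : FF (N * q) →ₐ[Kbar] FF (N * s * q))) :
          Set (FF (N * s * q))) := by
    have hle : Submonoid.closure
        (Set.range (inclTop N s q : FF (N * q) →ₐ[Kbar] FF (N * s * q)))
        ≤ MonoidHom.mrange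
          ((inclTop N s q : FF (N * q) →ₐ[Kbar] FF (N * s * q)) :
            FF (N * q) →* FF (N * s * q)) := by
      rw [Submonoid.closure_le]
      rintro _ ⟨x, rfl⟩
      exact ⟨x, rfl⟩
    intro m hm
    obtain ⟨x, rfl⟩ := hle hm
    exact Submodule.subset_span ⟨x, rfl⟩
  have h3 := Algebra.adjoin_eq_span_of_subset (FF (N * s)) hsub
  have h4 := IntermediateField.adjoin_toSubalgebra (F := FF (N * s)) (E := FF (N * s * q))
    (Set.range (inclTop N s q : FF (N * q) →ₐ[Kbar] FF (N * s * q)))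
  rw [← h3, ← h4, hE₁]
  rfl

/-- Norm compatibility in the `α`-square. -/
theorem norm_sq_inclAlpha (hq : q.Prime) (hqN : ¬ q ∣ N) (hqs : ¬ q ∣ s) (t : FF (N * q)) :
    normAlong (heckeAlphaBar Kbar (N * s) q) (inclTop N s q t)
      = inclBase N s (normAlong (heckeAlphaBar Kbar N q) t) := by
  letI i1 := algebraAlong (heckeAlphaBar Kbar N q)
  letI i2 := algebraAlong (heckeAlphaBar Kbar (N * s) q)
  haveI : Module.Finite (FF N) (FF (N * q)) := finiteAlong_FF (heckeAlphaBar Kbar N q)
  show Algebra.norm (FF (N * s)) (inclTop N s q t) = inclBase N s (Algebra.norm (FF N) t)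
  exact norm_baseChange (inclBase N s : FF N →+* FF (N * s))
    ((inclTop N s q : FF (N * q) →ₐ[Kbar] FF (N * s * q)) : FF (N * q) →+* FF (N * s * q))
    (fun a => (sq_comm_inclAlpha N s q a).symm)
    (finrankAlong_inclAlpha N s q hq hqN hqs) (span_range_inclAlpha N s q hq hqN hqs) t

/-- **Base change in the `α`-square**: `π'^* ∘ (α_{N,q})_* = (α_{Ns,q})_* ∘ π^*`. -/
theorem baseChange_inclAlpha (hq : q.Prime) (hqN : ¬ q ∣ N) (hqs : ¬ q ∣ s)
    (D : Divisor Kbar (FF (N * q))) :
    Divisor.pullbackAlong (inclBase N s) (isIntegral_FF _)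
        (Divisor.pushforwardAlong (heckeAlphaBar Kbar N q) (isIntegral_FF _) D)
      = Divisor.pushforwardAlong (heckeAlphaBar Kbar (N * s) q) (isIntegral_FF _)
        (Divisor.pullbackAlong (inclTop N s q) (isIntegral_FF _) D) :=
  pullback_pushforward_eq (heckeAlphaBar Kbar N q) (inclBase N s) (heckeAlphaBar Kbar (N * s) q)
    (inclTop N s q) (isIntegral_FF _) (isIntegral_FF _) (isIntegral_FF _)
    (isIntegral_FF _) (sq_comm_inclAlpha N s q) (finiteAlong_FF _)
    (normFormulaAlong_FF _) (finiteAlong_FF _) (normFormulaAlong_FF _)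
    (inertiaDegAlong_FF _) (inertiaDegAlong_FF _) (norm_sq_inclAlpha N s q hq hqN hqs)
    (weakApprox_FF (N * q)) D

/-! ### The `β`-square -/

theorem sq_comm_inclBeta (x : FF N) :
    heckeBetaBar Kbar (N * s) q (inclBase N s x) = inclTop N s q (heckeBetaBar Kbar N q x) := by
  apply Subtype.ext
  rw [coe_heckeBetaBar, coe_inclBase, coe_inclTop, coe_heckeBetaBar]

theorem finrankAlong_inclBeta (hq : q.Prime) (hqN : ¬ q ∣ N) (hqs : ¬ q ∣ s) :
    finrankAlong Kbar (heckeBetaBar Kbar N q)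
      = finrankAlong Kbar (heckeBetaBar Kbar (N * s) q) := by
  rw [Fermat.Agent.S37.H87.finrankAlong_beta_prime N q hq hqN,
    Fermat.Agent.S37.H87.finrankAlong_beta_prime (N * s) q hq
      (not_dvd_mul_of_not_dvd N s q hq hqN hqs)]

/-- `F_{Nsq} = β(F_{Ns}) · F_{Nq}`, in span form. -/
theorem span_range_inclBeta :
    letI := algebraAlong (heckeBetaBar Kbar (N * s) q)
    Submodule.span (FF (N * s))
      (Set.range (inclTop N s q : FF (N * q) →ₐ[Kbar] FF (N * s * q))) = ⊤ := by
  letI := algebraAlong (heckeBetaBar Kbar (N * s) q)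
  haveI := isScalarTower_along (heckeBetaBar Kbar (N * s) q)
  haveI : Module.Finite (FF (N * s)) (FF (N * s * q)) :=
    finiteAlong_FF (heckeBetaBar Kbar (N * s) q)
  have hjgen : jgen (N * s * q) = inclTop N s q (jgen (N * q)) := by
    apply Subtype.ext
    rw [coe_inclTop]
    rfl
  have hjtop : jF (N * s * q) (topDiv (N * s * q))
      = algebraMap (FF (N * s)) (FF (N * s * q)) (jF (N * s) (topDiv (N * s))) := by
    show _ = heckeBetaBar Kbar (N * s) q (jF (N * s) (topDiv (N * s)))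
    apply Subtype.ext
    rw [coe_heckeBetaBar]
    show coeffEmb Kbar (qExpand ℚ (N * s * q) jq)
      = qExpand Kbar q (coeffEmb Kbar (qExpand ℚ (N * s) jq))
    have h : ∀ (d : ℕ) [NeZero d],
        coeffEmb Kbar (qExpand ℚ d jq) = qExpand Kbar d (jqModC Kbar) :=
      fun d _ => coeffMap_jqNModC (algebraMap ℚ Kbar) d
    rw [h (N * s * q), h (N * s), qExpand_qExpand]
    exact Fermat.Agent.S29.H60.qExpand_congr (Nat.mul_comm (N * s) q) _
  have hE₁ : IntermediateField.adjoin (FF (N * s))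
      (Set.range (inclTop N s q : FF (N * q) →ₐ[Kbar] FF (N * s * q))) = ⊤ := by
    rw [← IntermediateField.restrictScalars_eq_top_iff (K := Kbar)]
    apply eq_top_of_jgen_mem_of_jtop_mem (N * s * q)
    · rw [IntermediateField.mem_restrictScalars, hjgen]
      exact IntermediateField.subset_adjoin _ _ ⟨_, rfl⟩
    · rw [IntermediateField.mem_restrictScalars, hjtop]
      exact IntermediateField.algebraMap_mem _ _
  have hsub : ((Submonoid.closure
      (Set.range (inclTop N s q : FF (N * q) →ₐ[Kbar] FF (N * s * q))) :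
        Submonoid (FF (N * s * q))) : Set (FF (N * s * q)))
      ⊆ (Submodule.span (FF (N * s))
        (Set.range (inclTop N s q : FF (N * q) →ₐ[Kbar] FF (N * s * q))) :
          Set (FF (N * s * q))) := by
    have hle : Submonoid.closure
        (Set.range (inclTop N s q : FF (N * q) →ₐ[Kbar] FF (N * s * q)))
        ≤ MonoidHom.mrange
          ((inclTop N s q : FF (N * q) →ₐ[Kbar] FF (N * s * q)) :
            FF (N * q) →* FF (N * s * q)) := by
      rw [Submonoid.closure_le]
      rintro _ ⟨x, rfl⟩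
      exact ⟨x, rfl⟩
    intro m hm
    obtain ⟨x, rfl⟩ := hle hm
    exact Submodule.subset_span ⟨x, rfl⟩
  have h3 := Algebra.adjoin_eq_span_of_subset (FF (N * s)) hsub
  have h4 := IntermediateField.adjoin_toSubalgebra (F := FF (N * s)) (E := FF (N * s * q))
    (Set.range (inclTop N s q : FF (N * q) →ₐ[Kbar] FF (N * s * q)))
  rw [← h3, ← h4, hE₁]
  rfl

/-- Norm compatibility in the `β`-square. -/
theorem norm_sq_inclBeta (hq : q.Prime) (hqN : ¬ q ∣ N) (hqs : ¬ q ∣ s) (t : FF (N * q)) :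
    normAlong (heckeBetaBar Kbar (N * s) q) (inclTop N s q t)
      = inclBase N s (normAlong (heckeBetaBar Kbar N q) t) := by
  letI i1 := algebraAlong (heckeBetaBar Kbar N q)
  letI i2 := algebraAlong (heckeBetaBar Kbar (N * s) q)
  haveI : Module.Finite (FF N) (FF (N * q)) := finiteAlong_FF (heckeBetaBar Kbar N q)
  show Algebra.norm (FF (N * s)) (inclTop N s q t) = inclBase N s (Algebra.norm (FF N) t)
  exact norm_baseChange (inclBase N s : FF N →+* FF (N * s))
    ((inclTop N s q : FF (N * q) →ₐ[Kbar] FF (N * s * q)) : FF (N * q) →+* FF (N * s * q))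
    (fun a => (sq_comm_inclBeta N s q a).symm)
    (finrankAlong_inclBeta N s q hq hqN hqs) (span_range_inclBeta N s q) t

/-- **Base change in the `β`-square**: `π'^* ∘ (β_{N,q})_* = (β_{Ns,q})_* ∘ π^*`. -/
theorem baseChange_inclBeta (hq : q.Prime) (hqN : ¬ q ∣ N) (hqs : ¬ q ∣ s)
    (D : Divisor Kbar (FF (N * q))) :
    Divisor.pullbackAlong (inclBase N s) (isIntegral_FF _)
        (Divisor.pushforwardAlong (heckeBetaBar Kbar N q) (isIntegral_FF _) D)
      = Divisor.pushforwardAlong (heckeBetaBar Kbar (N * s) q) (isIntegral_FF _)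
        (Divisor.pullbackAlong (inclTop N s q) (isIntegral_FF _) D) :=
  pullback_pushforward_eq (heckeBetaBar Kbar N q) (inclBase N s) (heckeBetaBar Kbar (N * s) q)
    (inclTop N s q) (isIntegral_FF _) (isIntegral_FF _) (isIntegral_FF _)
    (isIntegral_FF _) (sq_comm_inclBeta N s q) (finiteAlong_FF _)
    (normFormulaAlong_FF _) (finiteAlong_FF _) (normFormulaAlong_FF _)
    (inertiaDegAlong_FF _) (inertiaDegAlong_FF _) (norm_sq_inclBeta N s q hq hqN hqs)
    (weakApprox_FF (N * q)) D

/-! ### The statements on `J₀` -/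

/-- `α_* ∘ π^* = π'^* ∘ α_*` on `J₀(N q)(ℚ̄)`. -/
theorem degAlpha_pullPic (hq : q.Prime) (hqN : ¬ q ∣ N) (hqs : ¬ q ∣ s) (x : JZero (N * q)) :
    degAlpha (N * s) q (pullPic (inclTop N s q) x) = pullPic (inclBase N s) (degAlpha N q x) := by
  obtain ⟨D, rfl⟩ := Pic0.mk_surjective x
  obtain ⟨D₁, h1, e1⟩ := pullPic_mk' (inclTop N s q) D
  obtain ⟨D₂, h2, e2⟩ := pushPic_mk' (heckeAlphaBar Kbar (N * s) q) D₁
  obtain ⟨D₃, h3, e3⟩ := pushPic_mk' (heckeAlphaBar Kbar N q) D
  obtain ⟨D₄, h4, e4⟩ := pullPic_mk' (inclBase N s) D₃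
  rw [h1]
  unfold degAlpha
  rw [h2, h3, h4]
  refine congrArg Pic0.mk (Subtype.ext ?_)
  rw [e2, e1, e4, e3]
  exact (baseChange_inclAlpha N s q hq hqN hqs D).symm

/-- `β_* ∘ π^* = π'^* ∘ β_*` on `J₀(N q)(ℚ̄)`. -/
theorem degBeta_pullPic (hq : q.Prime) (hqN : ¬ q ∣ N) (hqs : ¬ q ∣ s) (x : JZero (N * q)) :
    degBeta (N * s) q (pullPic (inclTop N s q) x) = pullPic (inclBase N s) (degBeta N q x) := by
  obtain ⟨D, rfl⟩ := Pic0.mk_surjective x
  obtain ⟨D₁, h1, e1⟩ := pullPic_mk' (inclTop N s q) D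
  obtain ⟨D₂, h2, e2⟩ := pushPic_mk' (heckeBetaBar Kbar (N * s) q) D₁
  obtain ⟨D₃, h3, e3⟩ := pushPic_mk' (heckeBetaBar Kbar N q) D
  obtain ⟨D₄, h4, e4⟩ := pullPic_mk' (inclBase N s) D₃
  rw [h1]
  unfold degBeta
  rw [h2, h3, h4]
  refine congrArg Pic0.mk (Subtype.ext ?_)
  rw [e2, e1, e4, e3]
  exact (baseChange_inclBeta N s q hq hqN hqs D).symm

/-- `π^*` commutes with the arithmetic Galois action. -/
theorem pullPic_inclTop_smul (σ : Kbar ≃ₐ[ℚ] Kbar) (x : JZero (N * q)) :
    pullPic (inclTop N s q) (σ • x) = σ • pullPic (inclTop N s q) x :=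
  pullPic_inclFF_smul _ σ x

end Squares

end Fermat.Agent.S35.H60
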