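/-
S35-GEO, leaf (TRANSFER-NEW), part 2 (helper60): the exact statement `(B2new)` at the level
`N s` (`s` an auxiliary factor prime to `q`) gives the binding statement at level `N`:

  `transferNew : B2newExact (N * s) q p → B2newStatement N q p`,

with exponent loss `a = v_p([F_{N s q} : F_{N q}])`.  For `x` in the `q`-new part of
`J₀(N q)[p^n]`, `π^* x` is in the `q`-new part of `J₀(N s q)[p^n]` (`degAlpha_pullPic`,
`degBeta_pullPic`), `π^*` commutes with the Galois action, and the kernel of `π^*` is killed by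
the degree.
-/
import Fermat.Agent.S35.H60.TransferPull
import Fermat.Agent.S35.H27.B2Defs
import Fermat.Agent.S34.H27.Transfer

set_option autoImplicit false

open AlgebraicCurve ModularCurve

noncomputable section

namespace Fermat.Agent.S35.H60

open Fermat.Agent.S24 Fermat.Agent.S29.H60 Fermat.Agent.S35.H27

/-- `(σ² - 1)(σ² - q²)` preserves `p ^ n`-torsion. -/
theorem frobPoly_torsion {M q p n : ℕ} (σ : Kbar ≃ₐ[ℚ] Kbar) (x : JZero M)
    (hx : p ^ n • x = 0) : p ^ n • frobPoly M q σ x = 0 := by
  let T : JZero M →+ JZero M := DistribSMul.toAddMonoidHom (JZero M) σ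
  let φ : JZero M →+ JZero M :=
    T.comp (T.comp (T.comp T)) - (q ^ 2 + 1) • T.comp T + q ^ 2 • AddMonoidHom.id _
  have h : frobPoly M q σ x = φ x := rfl
  rw [h, ← map_nsmul, hx, map_zero]

/-- `π^*` commutes with `(σ² - 1)(σ² - q²)`. -/
theorem pullPic_frobPoly (N s q : ℕ) [NeZero N] [NeZero s] [NeZero q] (σ : Kbar ≃ₐ[ℚ] Kbar)
    (x : JZero (N * q)) :
    pullPic (inclTop N s q) (frobPoly (N * q) q σ x)
      = frobPoly (N * s * q) q σ (pullPic (inclTop N s q) x) := by
  unfold frobPoly
  simp only [map_add, map_sub, map_nsmul, pullPic_inclTop_smul]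

/-- **(TRANSFER-NEW)**: the exact statement `(B2new)` at the level `N s`, `s` prime to `q`,
gives the binding statement `(B2new)` at level `N`, with exponent loss
`v_p([F_{N s q} : F_{N q}])`. -/
theorem transferNew (N s q p : ℕ) [NeZero N] [NeZero s] [NeZero q] (hq : q.Prime)
    (hp : p.Prime) (hqN : ¬ q ∣ N) (hqs : ¬ q ∣ s) (h : B2newExact (N * s) q p) :
    B2newStatement N q p := by
  refine ⟨padicValNat p (finrankAlong Kbar (inclTop N s q)), fun n A hA σ hσ x hx hα hβ => ?_⟩
  set z : JZero (N * q) := frobPoly (N * q) q σ x with hz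
  have hπx : p ^ n • pullPic (inclTop N s q) x = 0 := by
    rw [← map_nsmul, hx, map_zero]
  have hπα : degAlpha (N * s) q (pullPic (inclTop N s q) x) = 0 := by
    rw [degAlpha_pullPic N s q hq hqN hqs, hα, map_zero]
  have hπβ : degBeta (N * s) q (pullPic (inclTop N s q) x) = 0 := by
    rw [degBeta_pullPic N s q hq hqN hqs, hβ, map_zero]
  have hπz : pullPic (inclTop N s q) z = 0 := by
    rw [hz, pullPic_frobPoly]
    exact h n A hA σ hσ (pullPic (inclTop N s q) x) hπx hπα hπβ
  have h1 : finrankAlong Kbar (inclTop N s q) • z = 0 :=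
    nsmul_eq_zero_of_pullPic_eq_zero (inclTop N s q) z hπz
  have h2 : p ^ n • z = 0 := frobPoly_torsion σ x hx
  exact Fermat.Agent.S34.H27.pow_padicValNat_smul_eq_zero hp
    (finrankAlong_pos_FF (inclTop N s q)).ne' z h1 h2

end Fermat.Agent.S35.H60
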