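/-
S35-GEO (helper60): the geometric target of S35 and the reduction of the binding interface
`(B2new)` to it (the S35 analogue of `S34.H27.b1Statement_of_geoTarget2`).

* `GeoTargetNew` : `B2newExact N' q p` at the levels `M = N' q` (`q ∤ N'`) satisfying the level
  hypotheses `S34.H27.LevelHyp2 M q p r` of Program B' (auxiliary prime `r ≡ 11 mod 12`,
  `r ∥ M`, `r` large, `2 ∣ M` unless `q = 2`, `3 ∣ M` unless `q = 3`);
* `b2newStatement_of_geoTargetNew : GeoTargetNew → B2newStatement N q p` for ALL `N` with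
  `q ∤ N`, `q ≠ p` (TRANSFER-NEW along `F_{N q} ⊆ F_{N s q}`, `s = auxE q * r`).
-/
import Fermat.Agent.S35.H60.TransferNew
import Fermat.Agent.S34.H27.Skeleton2

set_option autoImplicit false

open AlgebraicCurve ModularCurve

noncomputable section

namespace Fermat.Agent.S35.H60

open Fermat.Agent.S35.H27

/-- **The geometric target of S35**: the exact statement `(B2new)` at the levels `M = N' q` of
Program B' (second form). -/
def GeoTargetNew : Prop :=
  ∀ (N' q p r : ℕ) [NeZero N'] [NeZero q], ¬ q ∣ N' →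
    Fermat.Agent.S34.H27.LevelHyp2 (N' * q) q p r → B2newExact N' q p

/-- **Reduction to the geometric target**: `GeoTargetNew` gives the binding interface
`B2newStatement N q p` at every `N` with `q ∤ N`, `q ≠ p`. -/
theorem b2newStatement_of_geoTargetNew (h : GeoTargetNew) (N q p : ℕ) [NeZero N] [NeZero q]
    (hq : q.Prime) (hp : p.Prime) (hqp : q ≠ p) (hqN : ¬ q ∣ N) : B2newStatement N q p := by
  obtain ⟨r, hrgt, hr, hr12⟩ := Fermat.Agent.S34.H27.exists_aux_prime (N * 6 * q + q + p)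
  have hNpos : 0 < N := Nat.pos_of_ne_zero (NeZero.ne N)
  have hqpos : 0 < q := hq.pos
  have hepos := Fermat.Agent.S34.H27.auxE_pos q
  have hele := Fermat.Agent.S34.H27.auxE_le q
  set e : ℕ := Fermat.Agent.S34.H27.auxE q with he
  haveI : NeZero (e * r) := ⟨(Nat.mul_pos hepos hr.pos).ne'⟩
  have hNeq : N * e * q ≤ N * 6 * q :=
    Nat.mul_le_mul_right q (Nat.mul_le_mul_left N hele)
  have hposNeq : 0 < N * e * q := Nat.mul_pos (Nat.mul_pos hNpos hepos) hqpos
  have hrNeq : ¬ r ∣ N * e * q := fun hd => by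
    have := Nat.le_of_dvd hposNeq hd
    omega
  have hle : q ≤ N * 6 * q := Nat.le_mul_of_pos_left q (Nat.mul_pos hNpos (by norm_num))
  have hrq : r ≠ q := by omega
  have hrp : r ≠ p := by omega
  have hqr : ¬ q ∣ r := fun hd => hrq ((Nat.prime_dvd_prime_iff_eq hq hr).mp hd).symm
  have hqe : ¬ q ∣ e :=
    (Nat.Prime.coprime_iff_not_dvd hq).mp (Fermat.Agent.S34.H27.coprime_auxE hq)
  have hqs : ¬ q ∣ e * r := fun hd => ((Nat.Prime.dvd_mul hq).mp hd).elim hqe hqr
  have hqNs : ¬ q ∣ N * (e * r) := fun hd => ((Nat.Prime.dvd_mul hq).mp hd).elim hqN hqs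
  have hM : N * (e * r) * q = N * e * q * r := by ring
  refine transferNew N (e * r) q p hq hp hqN hqs (h (N * (e * r)) q p r hqNs
    ⟨⟨Nat.mul_pos (Nat.mul_pos hNpos (Nat.mul_pos hepos hr.pos)) hqpos, hq, hp, hqp,
      dvd_mul_left q _, ?_, hr, hr12, ⟨N * e * q, by rw [hM, mul_comm]⟩, ?_, hrq, hrp, ?_⟩,
      ?_, ?_⟩)
  · intro hd
    rw [sq] at hd
    exact hqNs (Nat.dvd_of_mul_dvd_mul_right hqpos hd)
  · intro hd
    rw [hM, sq] at hd
    exact hrNeq (Nat.dvd_of_mul_dvd_mul_right hr.pos hd)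
  · rw [hM, Nat.mul_div_cancel _ hr.pos]
    omega
  · intro h2
    exact Dvd.dvd.mul_right
      (Dvd.dvd.mul_left (Dvd.dvd.mul_right (Fermat.Agent.S34.H27.two_dvd_auxE h2) r) N) q
  · intro h3
    exact Dvd.dvd.mul_right
      (Dvd.dvd.mul_left (Dvd.dvd.mul_right (Fermat.Agent.S34.H27.three_dvd_auxE h3) r) N) q

end Fermat.Agent.S35.H60
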