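/-
S35, geometry side (helper60): TRANSVERSALITY of the two components of the special fibre at a
crossing point, over an unramified base (the last clause of `H27.Crossing`, level of the inertia
field).

At a crossing point `x₀ ⊇ P₁ + P₂` of the level-`qM'` chart `C₀` over a base in which `q` is a
uniformiser, the maximal ideal of the local ring is `P₁ + P₂`:  every `r ∈ x₀` satisfies
`u r = p₁ + p₂` with `u ∉ x₀`, `p₁ ∈ C₀ ∩ m(V₁)`, `p₂ ∈ C₀ ∩ m(V₂)`.

This is read off helper68's `ChartCrossL.nodeHyp` (`H46.NodeHyp.max_R : m = P₂ + (x)` with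
`x ∈ P₁`): only the Kronecker congruences are used — no unramifiedness of the level map away
from `q`, no regularity of the node.

* `fib_of_chartCrossL` : the statement for the chart-level data `H68.ChartCrossL`;
* `crossing_fib_of_dsetup_le` : the statement in the vocabulary of
  `H68.crossing_regular_of_dsetup_le` (same binders, without `hunr`);
* `crossing_fib_of_dsetup` : the same with the global hypothesis `β (chart) ⊆ chart`
  (binders of `H68.crossing_regular_of_dsetup` without `hunr`).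
-/
import Fermat.Agent.S34.H68.CrossNode2

set_option autoImplicit false
set_option linter.style.haveILetI false
set_option linter.unusedSectionVars false

open Polynomial

noncomputable section

namespace Fermat.Agent.S35.H60

open Fermat.Agent.S18 Fermat.Agent.S18.H19 Fermat.Agent.S34.H6 Fermat.Agent.S34.H68 IsLocalRing

section Loc

variable {S₀ C₀ K L : Type*} [CommRing S₀] [IsDomain S₀] [CommRing C₀] [IsDomain C₀]
  [Field K] [Field L] [Algebra K L] [Algebra S₀ C₀] [Algebra S₀ K] [Algebra C₀ L] [Algebra S₀ L]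
  [IsScalarTower S₀ K L] [IsScalarTower S₀ C₀ L]
  {q : ℕ} {O₀ : ValuationSubring K} {V₁ V₂ : ValuationSubring L} {β : S₀ →+* L}
  {σ : S₀ ≃+* S₀} {s : Ideal S₀} [s.IsPrime] {x₀ : Ideal C₀}

/-- **Transversality at a crossing point, chart-level data.**  Every element of the crossing
point is, up to an element outside it, the sum of an element of the first component and an
element of the second component. -/
theorem fib_of_chartCrossL (h : ChartCrossL q O₀ V₁ V₂ β σ s x₀)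
    [IsNoetherianRing S₀] [Module.Finite S₀ C₀] [FiniteDimensional K L]
    [IsDiscreteValuationRing O₀] (hne : V₁ ≠ V₂) (hdeg : Module.finrank K L = q + 1)
    (hprime : Prime (q : Localization.AtPrime s)) (t : S₀)
    (hmax : maximalIdeal (Localization.AtPrime s) =
      Ideal.span {(q : Localization.AtPrime s), algebraMap S₀ (Localization.AtPrime s) t})
    (w : S₀) (hw : σ w = w) (hwu : algebraMap S₀ K (w - w ^ (q ^ 2)) ∉ O₀.nonunits)
    (r : C₀) (hr : r ∈ x₀) :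
    ∃ p₁ p₂ u : C₀, u ∉ x₀ ∧ algebraMap C₀ L p₁ ∈ V₁.nonunits ∧
      algebraMap C₀ L p₂ ∈ V₂.nonunits ∧ u * r = p₁ + p₂ := by
  obtain ⟨hloc, hnode⟩ := h.nodeHyp hne hdeg hprime t hmax w hw hwu
  haveI := hloc
  have hmem : algebraMap C₀ (SemiLoc C₀ s) r ∈ maximalIdeal (SemiLoc C₀ s) :=
    IsLocalRing.le_maximalIdeal h.map_x₀_isPrime.ne_top (Ideal.mem_map_of_mem _ hr)
  rw [hnode.max_R] at hmem
  obtain ⟨π₂, hπ₂, y, hy, hsum⟩ := Submodule.mem_sup.mp hmem
  have hy₁ : y ∈ h.P₁ := (Ideal.span_singleton_le_iff_mem _).mpr hnode.x_mem1 hy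
  obtain ⟨c₁, d₁, hd₁, e₁⟩ := h.repR y
  obtain ⟨c₂, d₂, hd₂, e₂⟩ := h.repR π₂
  have hc₁ := (h.mem_P₁_iff y hd₁ e₁).mp hy₁
  have hc₂ := (h.mem_P₂_iff π₂ hd₂ e₂).mp hπ₂
  have hM : Algebra.algebraMapSubmonoid C₀ s.primeCompl ≤ nonZeroDivisors C₀ := by
    rintro z ⟨d, hd, rfl⟩
    apply mem_nonZeroDivisors_of_ne_zero
    intro h0
    have h1 : algebraMap C₀ L (algebraMap S₀ C₀ d) = 0 := by rw [h0, map_zero]
    rw [← IsScalarTower.algebraMap_apply S₀ C₀ L, IsScalarTower.algebraMap_apply S₀ K L,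
      map_eq_zero] at h1
    exact h.algebraMap_ne_zero hd h1
  have hinj : Function.Injective (algebraMap C₀ (SemiLoc C₀ s)) :=
    IsLocalization.injective (SemiLoc C₀ s) hM
  have hdx : ∀ d : S₀, d ∉ s → algebraMap S₀ C₀ d ∉ x₀ := by
    intro d hd hdx
    apply hd
    rw [← h.comap_x₀]
    exact hdx
  refine ⟨c₁ * algebraMap S₀ C₀ d₂, c₂ * algebraMap S₀ C₀ d₁,
    algebraMap S₀ C₀ d₁ * algebraMap S₀ C₀ d₂, ?_, ?_, ?_, ?_⟩
  · intro hu
    rcases (h.prime_x₀).mem_or_mem hu with h3 | h3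
    · exact hdx d₁ hd₁ h3
    · exact hdx d₂ hd₂ h3
  · rw [map_mul, ← IsScalarTower.algebraMap_apply S₀ C₀ L]
    exact mul_mem_nonunits_left V₁ hc₁ (h.algebraMap_mem₁ d₂)
  · rw [map_mul, ← IsScalarTower.algebraMap_apply S₀ C₀ L]
    exact mul_mem_nonunits_left V₂ hc₂ (h.algebraMap_mem₂ d₁)
  · apply hinj
    rw [map_mul, map_mul, map_add, map_mul, map_mul, ← hsum, ← e₁, ← e₂]
    ring

end Loc

section Main

variable {A₀ : Type*} [CommRing A₀] [IsDomain A₀] [IsDiscreteValuationRing A₀] [CharZero A₀]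
  {K L : Type*} [Field K] [Field L] [Algebra A₀ K] [Algebra A₀ L] [Algebra K L]
  [IsScalarTower A₀ K L] [FaithfulSMul A₀ K] [FiniteDimensional K L]

attribute [local instance] chartAlgTop

/-- The scalar tower of the two charts (local instance). -/
local instance chartTowerFib (x : K) :
    IsScalarTower ↥(chart A₀ x) ↥(chart A₀ (algebraMap K L x)) L :=
  chart_isScalarTower x

/-- **Transversality at the crossing points over an unramified base, local form.**  `q` a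
uniformiser of `A₀`; at a maximal ideal `x₀` of the level-`qM'` chart `C₀ = chart A₀ (α x)`
containing both components, such that `β` maps the level-`M'` chart into the local ring of `C₀`
at `x₀`: every `r ∈ x₀` is, up to an element outside `x₀`, a sum `p₁ + p₂` with
`p₁ ∈ C₀ ∩ m(V₁)`, `p₂ ∈ C₀ ∩ m(V₂)`.  (Binders of `H68.crossing_regular_of_dsetup_le` without
`hunr`.) -/
theorem crossing_fib_of_dsetup_le (q : ℕ) (hq : q.Prime) (hqA : Irreducible ((q : ℕ) : A₀))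
    (O₀ : ValuationSubring K) (x : K) (hS : DSetup A₀ O₀ x)
    (V₁ V₂ : ValuationSubring L)
    (hc₁ : ∀ v : K, algebraMap K L v ∈ V₁ ↔ v ∈ O₀)
    (hc₂ : ∀ v : K, algebraMap K L v ∈ V₂ ↔ v ∈ O₀)
    (hT : Fermat.Agent.S34.H64.TwoExt O₀ V₁ V₂) (hne : V₁ ≠ V₂)
    (hdeg : Module.finrank K L = q + 1)
    (β : K →+* L) (σ : K ≃+* K)
    (hσA : ∀ a : A₀, ∃ a' : A₀, σ (algebraMap A₀ K a) = algebraMap A₀ K a')
    (hσA' : ∀ a : A₀, ∃ a' : A₀, σ.symm (algebraMap A₀ K a) = algebraMap A₀ K a')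
    (hσx : σ x = x)
    (kron1 : ∀ g ∈ chart A₀ x, β g - algebraMap K L (σ.symm g) ^ q ∈ V₁.nonunits)
    (kron2 : ∀ f ∈ chart A₀ x, algebraMap K L f - β (σ.symm f) ^ q ∈ V₂.nonunits)
    (x₀ : Ideal ↥(chart A₀ (algebraMap K L x))) [hx₀ : x₀.IsMaximal]
    (hβ : ∀ g ∈ chart A₀ x, ∃ (c : ↥(chart A₀ (algebraMap K L x))) (d : ↥(chart A₀ x)),
      chartMap (A₀ := A₀) (L := L) x d ∉ x₀ ∧ β g * algebraMap K L (d : K) = (c : L))
    (h₁ : ∀ c : ↥(chart A₀ (algebraMap K L x)), (c : L) ∈ V₁.nonunits → c ∈ x₀)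
    (h₂ : ∀ c : ↥(chart A₀ (algebraMap K L x)), (c : L) ∈ V₂.nonunits → c ∈ x₀)
    (r : ↥(chart A₀ (algebraMap K L x))) (hr : r ∈ x₀) :
    ∃ p₁ p₂ u : ↥(chart A₀ (algebraMap K L x)), u ∉ x₀ ∧ (p₁ : L) ∈ V₁.nonunits ∧
      (p₂ : L) ∈ V₂.nonunits ∧ u * r = p₁ + p₂ := by
  have hσC : ∀ f : K, σ f ∈ chart A₀ x ↔ f ∈ chart A₀ x :=
    fun f => Fermat.Agent.S34.H10.chart_equiv_mem_iff σ hσA hσA' x hσx f
  have h := chartCrossL_of_dsetup q hq hqA O₀ x hS V₁ V₂ hc₁ hc₂ hT β σ hσC x₀ hβ kron1 kron2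
    h₁ h₂
  haveI : IsNoetherianRing ↥(chart A₀ x) :=
    Fermat.Agent.S34.H78.chart_isNoetherianRing O₀ x hS
  haveI : Module.Finite ↥(chart A₀ x) ↥(chart A₀ (algebraMap K L x)) :=
    chart_finite_top O₀ x hS
  haveI : IsDiscreteValuationRing ↥O₀ :=
    Fermat.Agent.S34.H10.isDiscreteValuationRing_of_dsetup hqA hS
  haveI hsmax : (x₀.comap (algebraMap ↥(chart A₀ x) ↥(chart A₀ (algebraMap K L x)))).IsMaximal :=
    Ideal.isMaximal_comap_of_isIntegral_of_isMaximal x₀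
  obtain ⟨hprime, t, -, hmax⟩ := Fermat.Agent.S34.H78.chart_nodeBase_natCast q hqA O₀ x hS
    (x₀.comap (algebraMap ↥(chart A₀ x) ↥(chart A₀ (algebraMap K L x)))) h.q_mem_s
  have hgu : ∃ i, IsUnit ((X - X ^ (q ^ 2) : A₀[X]).coeff i) := by
    refine ⟨1, ?_⟩
    have hq2 : q ^ 2 ≠ 1 := by
      have := hq.two_le
      intro h1
      have : 4 ≤ q ^ 2 := by nlinarith
      omega
    rw [coeff_sub, coeff_X_one, coeff_X_pow, if_neg (Ne.symm hq2), sub_zero]
    exact isUnit_one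
  have hwu : algebraMap ↥(chart A₀ x) K
      ((⟨x, self_mem_chart A₀ x⟩ : ↥(chart A₀ x)) -
        (⟨x, self_mem_chart A₀ x⟩ : ↥(chart A₀ x)) ^ (q ^ 2)) ∉ O₀.nonunits := by
    have e : algebraMap ↥(chart A₀ x) K
        ((⟨x, self_mem_chart A₀ x⟩ : ↥(chart A₀ x)) -
          (⟨x, self_mem_chart A₀ x⟩ : ↥(chart A₀ x)) ^ (q ^ 2)) =
        aeval x (X - X ^ (q ^ 2) : A₀[X]) := by
      simp only [map_sub, map_pow, aeval_X]
      rfl
    rw [e, not_mem_nonunits_iff]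
    exact ⟨Fermat.Agent.S18.H80.ds_aeval_ne_zero_of_unit hS _ hgu, (hS.gauss _ hgu).2⟩
  exact fib_of_chartCrossL h hne hdeg hprime t hmax ⟨x, self_mem_chart A₀ x⟩
    (Subtype.ext hσx) hwu r hr

/-- **Transversality at the crossing points over an unramified base**, global form
(`β (chart) ⊆ chart`; binders of `H68.crossing_regular_of_dsetup` without `hunr`). -/
theorem crossing_fib_of_dsetup (q : ℕ) (hq : q.Prime) (hqA : Irreducible ((q : ℕ) : A₀))
    (O₀ : ValuationSubring K) (x : K) (hS : DSetup A₀ O₀ x)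
    (V₁ V₂ : ValuationSubring L)
    (hc₁ : ∀ v : K, algebraMap K L v ∈ V₁ ↔ v ∈ O₀)
    (hc₂ : ∀ v : K, algebraMap K L v ∈ V₂ ↔ v ∈ O₀)
    (hT : Fermat.Agent.S34.H64.TwoExt O₀ V₁ V₂) (hne : V₁ ≠ V₂)
    (hdeg : Module.finrank K L = q + 1)
    (β : K →+* L) (σ : K ≃+* K)
    (hσA : ∀ a : A₀, ∃ a' : A₀, σ (algebraMap A₀ K a) = algebraMap A₀ K a')
    (hσA' : ∀ a : A₀, ∃ a' : A₀, σ.symm (algebraMap A₀ K a) = algebraMap A₀ K a')
    (hσx : σ x = x)
    (hβC : ∀ f ∈ chart A₀ x, β f ∈ chart A₀ (algebraMap K L x))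
    (kron1 : ∀ g ∈ chart A₀ x, β g - algebraMap K L (σ.symm g) ^ q ∈ V₁.nonunits)
    (kron2 : ∀ f ∈ chart A₀ x, algebraMap K L f - β (σ.symm f) ^ q ∈ V₂.nonunits)
    (x₀ : Ideal ↥(chart A₀ (algebraMap K L x))) [hx₀ : x₀.IsMaximal]
    (h₁ : ∀ c : ↥(chart A₀ (algebraMap K L x)), (c : L) ∈ V₁.nonunits → c ∈ x₀)
    (h₂ : ∀ c : ↥(chart A₀ (algebraMap K L x)), (c : L) ∈ V₂.nonunits → c ∈ x₀)
    (r : ↥(chart A₀ (algebraMap K L x))) (hr : r ∈ x₀) :
    ∃ p₁ p₂ u : ↥(chart A₀ (algebraMap K L x)), u ∉ x₀ ∧ (p₁ : L) ∈ V₁.nonunits ∧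
      (p₂ : L) ∈ V₂.nonunits ∧ u * r = p₁ + p₂ :=
  haveI : x₀.IsPrime := hx₀.isPrime
  crossing_fib_of_dsetup_le q hq hqA O₀ x hS V₁ V₂ hc₁ hc₂ hT hne hdeg β σ hσA hσA' hσx kron1
    kron2 x₀ (hbeta_local_of_global x β hβC x₀) h₁ h₂ r hr

end Main

end Fermat.Agent.S35.H60
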