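/-
S35, geometry side (helper60): TRANSVERSALITY of the two components at the crossing points, on the
concrete model over the inertia field (the E-level form of the last clause of `H27.Crossing`;
leaf L6(b), split (A)+(B) of helper28).

* `crossing_fib_ratForm` : `crossing_fib_of_dsetup_le` on the `E`-forms `K = ratForm M E`,
  `L = ratForm (M * q) E` (any intermediate field `E` with `A ∩ E` a discrete valuation ring in
  which `q` is a uniformiser): the binders of helper68's `H68.crossing_regular_ratForm` WITHOUT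
  `hunr`;
* `TransCrossFor B` : the E-level transversality statement relative to a predicate `B` on the base
  function, over `E = H92.inertiaField A K₀` (the shape of `H77.RegularCrossFor`, with the
  conclusion `∀ r ∈ y, ∃ p₁ p₂ s, s ∉ y ∧ p₁ ∈ m(V₁) ∧ p₂ ∈ m(V₂) ∧ s * r = p₁ + p₂`; no
  `LevelOK`);
* `transCross_std : TransCrossFor H30.StdB` : PROVED for the standard base function (`j(q^M)`,
  the Hauptmodul of level two for `q = 3`, of level three for `q = 2`), from helper68's
  `ChartCrossL.nodeHyp`, helper34's `exists_frob_supply`, helper43's `hbetaC_ratForm`, helper92's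
  `inertiaBase_exists`.  No unramifiedness, no hypothesis on elliptic points.
-/
import Fermat.Agent.S35.H60.CrossFib
import Fermat.Agent.S34.H68.CrossRat
import Fermat.Agent.S34.H34.FrobSupply
import Fermat.Agent.S34.H43.BetaChart
import Fermat.Agent.S34.H92.BaseAdapt
import Fermat.Agent.S34.H30.Final

set_option autoImplicit false
set_option linter.style.haveILetI false
set_option linter.unusedSectionVars false

open Polynomial IntermediateField ModularCurve AlgebraicCurve

noncomputable section

namespace Fermat.Agent.S35.H60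

open Fermat.Agent.S18 Fermat.Agent.S18.H74 Fermat.Agent.S18.H19 Fermat.Agent.S34.H19
  Fermat.Agent.S34.H61 Fermat.Agent.S34.H64 Fermat.Agent.S34.H6 Fermat.Agent.S34.H68
  Fermat.Agent.S34.H30 IsLocalRing

section Rat

variable {M q : ℕ} [NeZero M] [hqF : Fact q.Prime] {hqM : ¬ q ∣ M} {A : ValuationSubring Kb}
  {hA : A.LiesOverPrime q} {O₁ : ValuationSubring (FN (M * q))}
  {w : FN (M * q) ≃+* FN (M * q)}

/-- **Transversality at the crossing points on the `E`-forms.**  `E` any intermediate field with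
`A ∩ E` a discrete valuation ring in which `q` is a uniformiser (the inertia field), `x` a base
function of level `M` with its descended setup over `E`, `σ` a twist of `ratForm M E` fixing `x`
with the two Kronecker congruences on the chart of `x`.  At a maximal ideal `x₀` of the chart of
`j = α x` over `A ∩ E` lying on both components, with `β` integral at `x₀`: every `r ∈ x₀` is, up
to an element outside `x₀`, the sum of an element of the first component and an element of the
second component. -/
theorem crossing_fib_ratForm (hTG : TwoGauss M q hqM A hA O₁ w) (E : IntermediateField ℚ Kb)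
    [IsDiscreteValuationRing ↥(A.comap (algebraMap E Kb))]
    (hqA : Irreducible ((q : ℕ) : ↥(A.comap (algebraMap E Kb)))) :
    haveI : NeZero q := ⟨hqF.out.ne_zero⟩
    letI := algComap (A.comap (algebraMap E Kb)) (ratForm M E)
    letI := algComap (A.comap (algebraMap E Kb)) (ratForm (M * q) E)
    letI := algAlpha M q E
    haveI : IsScalarTower ↥(A.comap (algebraMap E Kb)) ↥(ratForm M E) ↥(ratForm (M * q) E) :=
      isScalarTower_algAlpha M q E A
    ∀ (x : ↥(ratForm M E)),
      DSetup ↥(A.comap (algebraMap E Kb)) (gaussForm M hqM A hA E) x →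
    ∀ (σ : ↥(ratForm M E) ≃+* ↥(ratForm M E)),
      (∀ a : ↥(A.comap (algebraMap E Kb)), ∃ a' : ↥(A.comap (algebraMap E Kb)),
        σ (algebraMap ↥(A.comap (algebraMap E Kb)) ↥(ratForm M E) a) =
          algebraMap ↥(A.comap (algebraMap E Kb)) ↥(ratForm M E) a') →
      (∀ a : ↥(A.comap (algebraMap E Kb)), ∃ a' : ↥(A.comap (algebraMap E Kb)),
        σ.symm (algebraMap ↥(A.comap (algebraMap E Kb)) ↥(ratForm M E) a) =
          algebraMap ↥(A.comap (algebraMap E Kb)) ↥(ratForm M E) a') →
      σ x = x →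
      (∀ g ∈ chart ↥(A.comap (algebraMap E Kb)) x,
        betaForm M q E g - alphaForm M q E (σ.symm g) ^ q ∈ (gaussOne M q O₁ E).nonunits) →
      (∀ f ∈ chart ↥(A.comap (algebraMap E Kb)) x,
        alphaForm M q E f - betaForm M q E (σ.symm f) ^ q ∈
          (gaussTwoForm M q O₁ w E).nonunits) →
    ∀ (x₀ : Ideal ↥(chart ↥(A.comap (algebraMap E Kb)) (alphaForm M q E x))) [x₀.IsMaximal],
      (∀ g ∈ chart ↥(A.comap (algebraMap E Kb)) x,
        ∃ (c : ↥(chart ↥(A.comap (algebraMap E Kb)) (alphaForm M q E x)))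
          (d : ↥(chart ↥(A.comap (algebraMap E Kb)) x)),
          chartMap (A₀ := ↥(A.comap (algebraMap E Kb))) (L := ↥(ratForm (M * q) E)) x d ∉ x₀ ∧
            betaForm M q E g * alphaForm M q E (d : ↥(ratForm M E)) =
              (c : ↥(ratForm (M * q) E))) →
      (∀ c : ↥(chart ↥(A.comap (algebraMap E Kb)) (alphaForm M q E x)),
        (c : ↥(ratForm (M * q) E)) ∈ (gaussOne M q O₁ E).nonunits → c ∈ x₀) →
      (∀ c : ↥(chart ↥(A.comap (algebraMap E Kb)) (alphaForm M q E x)),
        (c : ↥(ratForm (M * q) E)) ∈ (gaussTwoForm M q O₁ w E).nonunits → c ∈ x₀) →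
      ∀ r : ↥(chart ↥(A.comap (algebraMap E Kb)) (alphaForm M q E x)), r ∈ x₀ →
        ∃ p₁ p₂ u : ↥(chart ↥(A.comap (algebraMap E Kb)) (alphaForm M q E x)), u ∉ x₀ ∧
          (p₁ : ↥(ratForm (M * q) E)) ∈ (gaussOne M q O₁ E).nonunits ∧
          (p₂ : ↥(ratForm (M * q) E)) ∈ (gaussTwoForm M q O₁ w E).nonunits ∧
          u * r = p₁ + p₂ := by
  haveI : NeZero q := ⟨hqF.out.ne_zero⟩
  letI := algComap (A.comap (algebraMap E Kb)) (ratForm M E)
  letI := algComap (A.comap (algebraMap E Kb)) (ratForm (M * q) E)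
  letI := algAlpha M q E
  intro x hS σ hσA hσA' hσx kron1 kron2 x₀ _ hβ h₁ h₂ r hr
  haveI : IsScalarTower ↥(A.comap (algebraMap E Kb)) ↥(ratForm M E) ↥(ratForm (M * q) E) :=
    isScalarTower_algAlpha M q E A
  haveI : FaithfulSMul ↥(A.comap (algebraMap E Kb)) ↥(ratForm M E) :=
    Fermat.Agent.S34.H78.faithfulSMul_comap A E (ratForm M E)
  have hdeg : Module.finrank ↥(ratForm M E) ↥(ratForm (M * q) E) = q + 1 :=
    Fermat.Agent.S34.H59.finrank_alphaForm M q E hqF.out hqM
  haveI : FiniteDimensional ↥(ratForm M E) ↥(ratForm (M * q) E) :=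
    finite_of_finrank_eq_succ hdeg
  have hdvr : IsDiscreteValuationRing ↥(gaussForm M hqM A hA E) :=
    Fermat.Agent.S34.H10.isDiscreteValuationRing_of_dsetup hqA hS
  have hT : Fermat.Agent.S34.H64.TwoExt (gaussForm M hqM A hA E) (gaussOne M q O₁ E)
      (gaussTwoForm M q O₁ w E) :=
    twoExt_ratForm hTG E hdvr hdeg
  exact crossing_fib_of_dsetup_le q hqF.out hqA (gaussForm M hqM A hA E) x hS
    (gaussOne M q O₁ E) (gaussTwoForm M q O₁ w E) (fun v => alphaForm_mem_comap_iff hTG E v)
    (fun v => alphaForm_mem_comap_gaussTwo_iff hTG E v) hT (gaussOne_ne_gaussTwoForm hTG E) hdeg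
    (betaForm M q E) σ hσA hσA' hσx kron1 kron2 x₀ hβ h₁ h₂ r hr

end Rat

/-- **Transversality of the two components over the inertia field**, relative to a predicate on
the base function (the shape of `H77.RegularCrossFor`; no `LevelOK`): over the inertia field `E`
of `A` in a normal number field `K₀`, at every maximal ideal `y` of the chart
`chart (A ∩ E) (α x₀)` of level `M q` containing the nonunits of both Gauss valuation rings, every
`r ∈ y` is, up to an element outside `y`, the sum of a nonunit of the first Gauss ring and a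
nonunit of the second. -/
def TransCrossFor (B : (M q : ℕ) → FN M → Prop) : Prop :=
  ∀ (M q : ℕ) [NeZero M] [Fact q.Prime] (hqM : ¬ q ∣ M)
    (A : ValuationSubring Kb) (hA : A.LiesOverPrime q) (_hAtop : A ≠ ⊤)
    (O₁ : ValuationSubring (FN (M * q))) (w : FN (M * q) ≃+* FN (M * q)),
    TwoGauss M q hqM A hA O₁ w →
    ∀ (x₀ : FN M), IsBase M q hqM A hA x₀ → B M q x₀ →
    ∀ (K₀ : IntermediateField ℚ Kb) [FiniteDimensional ℚ K₀] [Normal ℚ K₀]
      (jE : ↥(ratForm (M * q) (Fermat.Agent.S34.H92.inertiaField A K₀))),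
      (jE : FN (M * q)) = heckeAlphaBar Kb M q x₀ →
      letI := algComap (A.comap (algebraMap (Fermat.Agent.S34.H92.inertiaField A K₀) Kb))
        (ratForm (M * q) (Fermat.Agent.S34.H92.inertiaField A K₀))
      ∀ (y : Ideal ↥(chart ↥(A.comap (algebraMap (Fermat.Agent.S34.H92.inertiaField A K₀) Kb))
          jE)), y.IsMaximal →
        (∀ c : ↥(chart ↥(A.comap (algebraMap (Fermat.Agent.S34.H92.inertiaField A K₀) Kb)) jE),
          (c : ↥(ratForm (M * q) (Fermat.Agent.S34.H92.inertiaField A K₀))) ∈
            (O₁.comap (algebraMap ↥(ratForm (M * q) (Fermat.Agent.S34.H92.inertiaField A K₀))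
              (FN (M * q)))).nonunits → c ∈ y) →
        (∀ c : ↥(chart ↥(A.comap (algebraMap (Fermat.Agent.S34.H92.inertiaField A K₀) Kb)) jE),
          (c : ↥(ratForm (M * q) (Fermat.Agent.S34.H92.inertiaField A K₀))) ∈
            ((gaussTwo M q O₁ w).comap
              (algebraMap ↥(ratForm (M * q) (Fermat.Agent.S34.H92.inertiaField A K₀))
                (FN (M * q)))).nonunits → c ∈ y) →
        ∀ r : ↥(chart ↥(A.comap (algebraMap (Fermat.Agent.S34.H92.inertiaField A K₀) Kb)) jE),
          r ∈ y →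
          ∃ p₁ p₂ s : ↥(chart ↥(A.comap (algebraMap (Fermat.Agent.S34.H92.inertiaField A K₀) Kb))
              jE), s ∉ y ∧
            (p₁ : ↥(ratForm (M * q) (Fermat.Agent.S34.H92.inertiaField A K₀))) ∈
              (O₁.comap (algebraMap ↥(ratForm (M * q) (Fermat.Agent.S34.H92.inertiaField A K₀))
                (FN (M * q)))).nonunits ∧
            (p₂ : ↥(ratForm (M * q) (Fermat.Agent.S34.H92.inertiaField A K₀))) ∈
              ((gaussTwo M q O₁ w).comap
                (algebraMap ↥(ratForm (M * q) (Fermat.Agent.S34.H92.inertiaField A K₀))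
                  (FN (M * q)))).nonunits ∧
            s * r = p₁ + p₂

set_option maxHeartbeats 2000000 in
set_option synthInstance.maxHeartbeats 400000 in
/-- **Transversality of the two components over the inertia field, for the standard base
function** (all three cases; no hypothesis on the level beyond `IsBase`). -/
theorem transCross_std : TransCrossFor StdB := by
  intro M q instM _ hqM A hA hAtop O₁ w hTG x₀ hx₀ hB K₀ _ _ jE hjE
  intro y hy hb1 hb2 r hr
  have hqp : q.Prime := Fact.out
  haveI : NeZero q := ⟨hqp.ne_zero⟩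
  obtain ⟨π, e, g, hIB, hπ0, hg0⟩ :=
    Fermat.Agent.S34.H92.inertiaBase_exists (A := A) (K := K₀) q hqp hA
  haveI hfinE : FiniteDimensional ℚ ↥(Fermat.Agent.S34.H92.inertiaField A K₀) := hIB.fin
  haveI hdvr : IsDiscreteValuationRing
      ↥(A.comap (algebraMap ↥(Fermat.Agent.S34.H92.inertiaField A K₀) Kb)) :=
    Fermat.Agent.S34.H78.isDVR_comap hAtop _
  have hqE : Irreducible
      ((q : ℕ) : ↥(A.comap (algebraMap ↥(Fermat.Agent.S34.H92.inertiaField A K₀) Kb))) :=
    hIB.irreducible_natCast hqp hA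
  have hxE : x₀ ∈ ratForm M (Fermat.Agent.S34.H92.inertiaField A K₀) :=
    mem_ratForm_of_mem_range M _ hx₀.1
  obtain ⟨hS, hS'⟩ := hx₀.2 (Fermat.Agent.S34.H92.inertiaField A K₀) hxE
  obtain rfl : jE = alphaForm M q (Fermat.Agent.S34.H92.inertiaField A K₀)
      (⟨x₀, hxE⟩ : ↥(ratForm M (Fermat.Agent.S34.H92.inertiaField A K₀))) :=
    Subtype.ext hjE
  letI algM := algComap (A.comap (algebraMap ↥(Fermat.Agent.S34.H92.inertiaField A K₀) Kb))
    (ratForm M (Fermat.Agent.S34.H92.inertiaField A K₀))
  letI algN := algComap (A.comap (algebraMap ↥(Fermat.Agent.S34.H92.inertiaField A K₀) Kb))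
    (ratForm (M * q) (Fermat.Agent.S34.H92.inertiaField A K₀))
  letI algKL := algAlpha M q (Fermat.Agent.S34.H92.inertiaField A K₀)
  haveI tow := isScalarTower_algAlpha M q (Fermat.Agent.S34.H92.inertiaField A K₀) A
  obtain ⟨σ, hσA, hσA', hσx, kron1, kron2⟩ :=
    Fermat.Agent.S34.H34.exists_frob_supply hTG K₀
      (⟨x₀, hxE⟩ : ↥(ratForm M (Fermat.Agent.S34.H92.inertiaField A K₀)))
      hx₀.1 (Fermat.Agent.S18.H80.ds_chart_le hS)
  haveI : y.IsMaximal := hy
  haveI : FaithfulSMul ↥(A.comap (algebraMap ↥(Fermat.Agent.S34.H92.inertiaField A K₀) Kb))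
      ↥(ratForm M (Fermat.Agent.S34.H92.inertiaField A K₀)) :=
    Fermat.Agent.S34.H78.faithfulSMul_comap A _
      (ratForm M (Fermat.Agent.S34.H92.inertiaField A K₀))
  have hdeg : Module.finrank ↥(ratForm M (Fermat.Agent.S34.H92.inertiaField A K₀))
      ↥(ratForm (M * q) (Fermat.Agent.S34.H92.inertiaField A K₀)) = q + 1 :=
    Fermat.Agent.S34.H59.finrank_alphaForm M q (Fermat.Agent.S34.H92.inertiaField A K₀) hqp hqM
  haveI : FiniteDimensional ↥(ratForm M (Fermat.Agent.S34.H92.inertiaField A K₀))
      ↥(ratForm (M * q) (Fermat.Agent.S34.H92.inertiaField A K₀)) :=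
    Fermat.Agent.S34.H61.finite_of_finrank_eq_succ hdeg
  have hβC := Fermat.Agent.S34.H43.hbetaC_ratForm hTG x₀ hx₀ hB
    (Fermat.Agent.S34.H92.inertiaField A K₀) hxE
  exact crossing_fib_ratForm hTG (Fermat.Agent.S34.H92.inertiaField A K₀) hqE ⟨x₀, hxE⟩ hS σ
    hσA hσA' hσx kron1 kron2 y
    (hbeta_local_of_global _ (betaForm M q (Fermat.Agent.S34.H92.inertiaField A K₀)) hβC y)
    hb1 hb2 r hr

end Fermat.Agent.S35.H60
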