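/-
S35-ALG, leaf (COMM), polynomial forms (helper60): the degeneracy push-forwards
`α_*, β_* : J₀(N q) → J₀(N)` intertwine EVERY polynomial in the Hecke operators `T_ℓ`, `ℓ ≠ q`:

* `degAlpha_heckeEvalBar`, `degBeta_heckeEvalBar` : for `t : HeckeAlg = ℤ[T_ℓ : ℓ prime]`
  supported on the primes `≠ q`,
  `α_* (t(T^{(N q)}) x) = t(T^{(N)}) (α_* x)` (Prelude `heckeEvalBar`);
* `degAlpha_smul`, `degBeta_smul` : the same for the Prelude module structure `heckeModuleBar`;
* `intertwiner f` : the subring of pairs `(a, b)` of endomorphisms with `f ∘ a = b ∘ f`, and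
  `heckePair_mem_intertwiner_degAlpha / _degBeta`.
-/
import Fermat.Agent.S35.H60.CommBeta

set_option autoImplicit false

open AlgebraicCurve ModularCurve

noncomputable section

namespace Fermat.Agent.S35.H60

open Fermat.Agent.S24 Fermat.Agent.S29.H60

section Abstract

variable {J' J : Type*} [AddCommGroup J'] [AddCommGroup J]

/-- The pairs of endomorphisms intertwined by an additive map `f : J' → J`. -/
def intertwiner (f : J' →+ J) : Subring (Module.End ℤ J' × Module.End ℤ J) where
  carrier := {p | ∀ x, f (p.1 x) = p.2 (f x)}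
  mul_mem' := by
    intro a b ha hb x
    show f (a.1 (b.1 x)) = a.2 (b.2 (f x))
    rw [ha, hb]
  one_mem' := fun _ => rfl
  add_mem' := by
    intro a b ha hb x
    show f (a.1 x + b.1 x) = a.2 (f x) + b.2 (f x)
    rw [map_add, ha, hb]
  zero_mem' := fun x => map_zero f
  neg_mem' := by
    intro a ha x
    show f (-(a.1 x)) = -(a.2 (f x))
    rw [map_neg, ha]

theorem mem_intertwiner (f : J' →+ J) (p : Module.End ℤ J' × Module.End ℤ J) :
    p ∈ intertwiner f ↔ ∀ x, f (p.1 x) = p.2 (f x) :=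
  Iff.rfl

/-- Two ring homomorphisms `E', E` from `ℤ[T_ℓ]` to the endomorphisms of `J'`, `J` are
intertwined by `f` on every polynomial supported on a set `s` of variables on which they are. -/
theorem intertwine_supported (f : J' →+ J) (E' : HeckeAlg →+* Module.End ℤ J')
    (E : HeckeAlg →+* Module.End ℤ J) (s : Set Nat.Primes)
    (hX : ∀ ℓ ∈ s, ∀ x, f (E' (heckeGen ℓ) x) = E (heckeGen ℓ) (f x))
    (t : HeckeAlg) (ht : t ∈ MvPolynomial.supported ℤ s) (x : J') :
    f (E' t x) = E t (f x) := by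
  have key : ∀ t ∈ Algebra.adjoin ℤ (MvPolynomial.X '' s : Set HeckeAlg),
      ∀ x, f (E' t x) = E t (f x) := by
    intro t ht
    induction ht using Algebra.adjoin_induction with
    | mem t ht =>
      obtain ⟨ℓ, hℓ, rfl⟩ := ht
      exact hX ℓ hℓ
    | algebraMap a =>
      intro x
      rw [eq_intCast, map_intCast, map_intCast, Module.End.intCast_apply,
        Module.End.intCast_apply, map_zsmul]
    | add a b _ _ ha hb =>
      intro x
      rw [map_add, map_add, LinearMap.add_apply, LinearMap.add_apply, map_add, ha, hb]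
    | mul a b _ _ ha hb =>
      intro x
      rw [map_mul, map_mul, Module.End.mul_apply, Module.End.mul_apply, ha, hb]
  exact key t ht x

end Abstract

section Modular

variable (N q : ℕ) [NeZero N] [NeZero q]

/-- `α_*` intertwines every polynomial in the `T_ℓ`, `ℓ ≠ q`. -/
theorem degAlpha_heckeEvalBar (hq : q.Prime) (t : HeckeAlg)
    (ht : t ∈ MvPolynomial.supported ℤ {ℓ : Nat.Primes | (ℓ : ℕ) ≠ q}) (x : JZero (N * q)) :
    degAlpha N q (heckeEvalBar (heckeOperatorsCommuteBar (N * q)) t x)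
      = heckeEvalBar (heckeOperatorsCommuteBar N) t (degAlpha N q x) :=
  intertwine_supported (degAlpha N q) _ _ _
    (fun ℓ hℓ x => by
      rw [heckeEvalBar_heckeGen, heckeEvalBar_heckeGen]
      exact degAlpha_heckeOperatorBar N q hq ℓ hℓ x) t ht x

/-- `β_*` intertwines every polynomial in the `T_ℓ`, `ℓ ≠ q` (`q ∤ N`). -/
theorem degBeta_heckeEvalBar (hq : q.Prime) (hqN : ¬ q ∣ N) (t : HeckeAlg)
    (ht : t ∈ MvPolynomial.supported ℤ {ℓ : Nat.Primes | (ℓ : ℕ) ≠ q}) (x : JZero (N * q)) :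
    degBeta N q (heckeEvalBar (heckeOperatorsCommuteBar (N * q)) t x)
      = heckeEvalBar (heckeOperatorsCommuteBar N) t (degBeta N q x) :=
  intertwine_supported (degBeta N q) _ _ _
    (fun ℓ hℓ x => by
      rw [heckeEvalBar_heckeGen, heckeEvalBar_heckeGen]
      exact degBeta_heckeOperatorBar N q hq hqN ℓ hℓ x) t ht x

/-- `α_*` is linear for the Prelude Hecke-module structures, on polynomials in the `T_ℓ`,
`ℓ ≠ q`. -/
theorem degAlpha_smul (hq : q.Prime) (t : HeckeAlg)
    (ht : t ∈ MvPolynomial.supported ℤ {ℓ : Nat.Primes | (ℓ : ℕ) ≠ q}) (x : JZero (N * q)) :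
    degAlpha N q (letI := heckeModuleBar (N * q); t • x)
      = (letI := heckeModuleBar N; t • degAlpha N q x) := by
  rw [heckeModuleBar_smul_def (heckeOperatorsCommuteBar (N * q)),
    heckeModuleBar_smul_def (heckeOperatorsCommuteBar N)]
  exact degAlpha_heckeEvalBar N q hq t ht x

/-- `β_*` is linear for the Prelude Hecke-module structures, on polynomials in the `T_ℓ`,
`ℓ ≠ q` (`q ∤ N`). -/
theorem degBeta_smul (hq : q.Prime) (hqN : ¬ q ∣ N) (t : HeckeAlg)
    (ht : t ∈ MvPolynomial.supported ℤ {ℓ : Nat.Primes | (ℓ : ℕ) ≠ q}) (x : JZero (N * q)) :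
    degBeta N q (letI := heckeModuleBar (N * q); t • x)
      = (letI := heckeModuleBar N; t • degBeta N q x) := by
  rw [heckeModuleBar_smul_def (heckeOperatorsCommuteBar (N * q)),
    heckeModuleBar_smul_def (heckeOperatorsCommuteBar N)]
  exact degBeta_heckeEvalBar N q hq hqN t ht x

/-- The pair `(T_ℓ^{(N q)}, T_ℓ^{(N)})` is intertwined by `α_*`. -/
theorem heckePair_mem_intertwiner_degAlpha (hq : q.Prime) (ℓ : Nat.Primes)
    (hℓq : (ℓ : ℕ) ≠ q) :
    (heckeOperatorBar (N * q) ℓ, heckeOperatorBar N ℓ) ∈ intertwiner (degAlpha N q) :=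
  fun x => degAlpha_heckeOperatorBar N q hq ℓ hℓq x

/-- The pair `(T_ℓ^{(N q)}, T_ℓ^{(N)})` is intertwined by `β_*`. -/
theorem heckePair_mem_intertwiner_degBeta (hq : q.Prime) (hqN : ¬ q ∣ N) (ℓ : Nat.Primes)
    (hℓq : (ℓ : ℕ) ≠ q) :
    (heckeOperatorBar (N * q) ℓ, heckeOperatorBar N ℓ) ∈ intertwiner (degBeta N q) :=
  fun x => degBeta_heckeOperatorBar N q hq hqN ℓ hℓq x

end Modular

end Fermat.Agent.S35.H60
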